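import Fermat.Agent.HeckeFinite.Injective
import Fermat.Prelude.Def_ModularCurve_PeriodHomPair

/-!
# Weight two: equivariant primitives and the period map of `Γ₀(N)`
-/

set_option autoImplicit false

noncomputable section

open UpperHalfPlane Filter Polynomial CongruenceSubgroup ModularCurve ModularCurve.Period
open scoped Topology Manifold MatrixGroups ModularForm

namespace Fermat.Agent.HeckeFinite

variable {N : ℕ} [NeZero N]

theorem polyPrim_zero_one (φ : ℍ → ℂ) (τ : ℍ) : polyPrim 0 φ 1 τ = prim φ τ := by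
  simp [polyPrim_apply]

theorem two_eq : (2 : ℤ) = ((0 : ℕ) : ℤ) + 2 := by norm_num

theorem prim_smul_SL (f : CuspForm (Gamma0 N) 2) (δ : SL(2, ℤ)) (τ : ℍ) :
    prim ⇑f (δ • τ) = periodConst 0 f δ 1 + prim ((⇑f) ∣[(2 : ℤ)] δ) τ := by
  have h := polyPrim_smul_SL two_eq f δ (Q := 1) (by simp) τ
  have e : pAct 0 (δ : GL (Fin 2) ℝ).val 1 = 1 := by
    simp [pAct, polyAct_apply]
  rwa [e, polyPrim_zero_one, polyPrim_zero_one] at h

/-- `prim f` is the equivariant primitive of `f` required by the period map. -/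
theorem hasEquivariantPrimitive_prim (f : CuspForm (Gamma0 N) 2) :
    HasEquivariantPrimitive N f (prim ⇑f) := by
  refine ⟨(cuspLike_cuspForm f).prim_spec.1, (cuspLike_cuspForm f).prim_spec.2.zero, ?_, ?_⟩
  · intro γ
    refine ⟨periodConst 0 f γ 1, fun z => ?_⟩
    rw [prim_smul_SL f γ z, slash_eq_self_of_mem f γ.2, add_sub_cancel_right]
  · intro δ
    refine ⟨periodConst 0 f δ 1, ?_⟩
    simp only [prim_smul_SL f δ]
    simpa using! (cuspLike_slash f δ).prim_spec.2.zero.const_add (periodConst 0 f δ 1)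

theorem exists_hasEquivariantPrimitive (f : CuspForm (Gamma0 N) 2) :
    ∃ F, HasEquivariantPrimitive N f F := ⟨_, hasEquivariantPrimitive_prim f⟩

omit [NeZero N] in
theorem hasEquivariantPrimitive_unique {f : CuspForm (Gamma0 N) 2} {F G : ℍ → ℂ}
    (hF : HasEquivariantPrimitive N f F) (hG : HasEquivariantPrimitive N f G) : F = G :=
  IsPrim.unique hF.1 hG.1 (IsZeroAtImInfty.zeroOnLines hF.2.1)
    (IsZeroAtImInfty.zeroOnLines hG.2.1)

omit [NeZero N] in
theorem periodMap_eq {f : CuspForm (Gamma0 N) 2} {F : ℍ → ℂ}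
    (hF : HasEquivariantPrimitive N f F) : periodMap N f = hF.2.2.1.periodHom := by
  obtain ⟨F₀, h₀, he⟩ := periodMap_def N f hF
  obtain rfl := hasEquivariantPrimitive_unique h₀ hF
  exact he

theorem periodMap_apply (f : CuspForm (Gamma0 N) 2) (γ : Gamma0 N) :
    periodMap N f (Additive.ofMul γ) = period N 2 0 (γ : SL(2, ℤ)) 1 f := by
  rw [periodMap_eq (hasEquivariantPrimitive_prim f), IsEquivariantPrimitive.periodHom_apply,
    IsEquivariantPrimitive.period, prim_smul_SL f, slash_eq_self_of_mem f γ.2,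
    add_sub_cancel_right, periodConst_eq_period f γ.2]

variable (N)

/-- The period map as a linear map. -/
def periodMapLin : CuspForm (Gamma0 N) 2 →ₗ[ℂ] (Additive (Gamma0 N) →+ ℂ) where
  toFun f := periodMap N f
  map_add' f g := by
    refine AddMonoidHom.ext fun γ => ?_
    obtain ⟨γ, rfl⟩ := Additive.ofMul.surjective γ
    simp only [AddMonoidHom.add_apply, periodMap_apply, map_add]
  map_smul' c f := by
    refine AddMonoidHom.ext fun γ => ?_
    obtain ⟨γ, rfl⟩ := Additive.ofMul.surjective γ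
    show _ = c • periodMap N f (Additive.ofMul γ)
    simp only [periodMap_apply, map_smul]

theorem periodMapLin_apply (f : CuspForm (Gamma0 N) 2) : periodMapLin N f = periodMap N f := rfl

theorem existsPeriodMapLinear : ExistsPeriodMapLinear N := ⟨periodMapLin N, fun _ => rfl⟩

theorem periodMap_injective : Function.Injective (periodMap N) := by
  show Function.Injective (periodMapLin N)
  refine (injective_iff_map_eq_zero _).mpr fun f hf => ?_
  refine eq_zero_of_periodsVanish two_eq fun γ hγ j hj => ?_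
  obtain rfl : j = 0 := Nat.le_zero.mp hj
  rw [pow_zero]
  have h := periodMap_apply f ⟨γ, hγ⟩
  rw [← periodMapLin_apply, hf] at h
  simpa using h.symm

theorem periodHomPair_eq : periodHomPair N = LinearMap.coprod
    ((LinearMap.id + charInvolution N ℂ ℂ) ∘ₗ periodMapLin N)
    ((LinearMap.id - charInvolution N ℂ ℂ) ∘ₗ periodMapLin N) := by
  obtain ⟨pml, hpml, he⟩ := periodHomPair_def N (existsPeriodMapLinear N)
  obtain rfl : pml = periodMapLin N := LinearMap.ext hpml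
  exact he

variable {N}

/-- An element of `SL(2,ℤ)` with trace `±2` is conjugate to one with zero lower left entry. -/
theorem exists_conj_lowerLeft_eq_zero (γ : SL(2, ℤ))
    (hγ : (γ : Matrix (Fin 2) (Fin 2) ℤ).trace ^ 2 = 4) :
    ∃ δ : SL(2, ℤ), (δ⁻¹ * γ * δ) 1 0 = 0 := by
  have hdet : γ 0 0 * γ 1 1 - γ 0 1 * γ 1 0 = 1 := by
    rw [← Matrix.det_fin_two]; exact γ.det_coe
  rw [Matrix.trace_fin_two] at hγ
  have key : ∀ δ : SL(2, ℤ), (δ⁻¹ * γ * δ) 1 0 =
      γ 1 0 * δ 0 0 ^ 2 + (γ 1 1 - γ 0 0) * δ 0 0 * δ 1 0 - γ 0 1 * δ 1 0 ^ 2 := by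
    intro δ
    simp [Matrix.SpecialLinearGroup.coe_inv, Matrix.adjugate_fin_two, Matrix.mul_apply,
      Fin.sum_univ_two, Matrix.vecMul, dotProduct]
    ring
  by_cases hc : γ 1 0 = 0
  · exact ⟨1, by simpa using hc⟩
  -- the fixed point is (a-d)/(2c), written in lowest terms as x/y
  set u := γ 0 0 - γ 1 1
  set v := 2 * γ 1 0
  obtain ⟨x, y, hxy, hu, hv⟩ : ∃ x y : ℤ, IsCoprime x y ∧
      u = x * (Int.gcd u v : ℤ) ∧ v = y * (Int.gcd u v : ℤ) := by
    have hpos : 0 < Int.gcd u v := Int.gcd_pos_of_ne_zero_right _ (by simp [v, hc])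
    obtain ⟨x, y, h1, h2, h3⟩ := Int.exists_gcd_one hpos
    exact ⟨x, y, Int.isCoprime_iff_gcd_eq_one.mpr h1, h2, h3⟩
  obtain ⟨δ, h0, h1⟩ := hxy.exists_SL2_col 0
  refine ⟨δ, ?_⟩
  rw [key, h0, h1]
  have hg : (Int.gcd u v : ℤ) ^ 2 ≠ 0 := by
    have : 0 < Int.gcd u v := Int.gcd_pos_of_ne_zero_right _ (by simp [v, hc])
    positivity
  apply mul_right_cancel₀ hg
  have e : γ 1 0 * u ^ 2 + (γ 1 1 - γ 0 0) * u * v - γ 0 1 * v ^ 2 = 0 := by
    simp only [u, v]
    linear_combination (-γ 1 0) * hγ + 4 * γ 1 0 * hdet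
  calc _ = γ 1 0 * (x * (Int.gcd u v : ℤ)) ^ 2 +
        (γ 1 1 - γ 0 0) * (x * (Int.gcd u v : ℤ)) * (y * (Int.gcd u v : ℤ)) -
        γ 0 1 * (y * (Int.gcd u v : ℤ)) ^ 2 := by ring
    _ = 0 := by rw [← hu, ← hv, e]
    _ = _ := (zero_mul _).symm

/-- Periods of cusp forms vanish on parabolic elements. -/
theorem periodMap_mem_parabolicHoms (f : CuspForm (Gamma0 N) 2) :
    periodMap N f ∈ parabolicHoms ℂ (Gamma0 N) ℂ := by
  rw [mem_parabolicHoms_iff]
  intro γ hγ
  obtain ⟨δ, hδ⟩ := exists_conj_lowerLeft_eq_zero (γ : SL(2, ℤ)) hγ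
  set ε : SL(2, ℤ) := δ⁻¹ * γ * δ with hε
  have hγε : (γ : SL(2, ℤ)) * δ = δ * ε := by rw [hε]; group
  obtain ⟨L, hL⟩ := (hasEquivariantPrimitive_prim f).2.2.2 δ
  have hε0 : ((ε : GL (Fin 2) ℝ)).val 1 0 = 0 := by simp [hδ]
  have h1 : Tendsto (fun w : ℍ => prim ⇑f (δ • ε • w) - prim ⇑f (δ • w)) atImInfty (𝓝 0) := by
    simpa using! (hL.comp (tendsto_smul_atImInfty hε0)).sub hL
  have h2 : ∀ w : ℍ, prim ⇑f (δ • ε • w) - prim ⇑f (δ • w) =
      periodMap N f (Additive.ofMul γ) := by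
    intro w
    rw [← mul_smul, ← hγε, mul_smul, periodMap_apply, prim_smul_SL f (γ : SL(2, ℤ)),
      slash_eq_self_of_mem f γ.2, add_sub_cancel_right, periodConst_eq_period f γ.2]
  exact tendsto_const_nhds_iff.mp (h1.congr h2)

end Fermat.Agent.HeckeFinite
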