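import Fermat.Agent.HeckeFinite.Period
import Mathlib.NumberTheory.ModularForms.NormTrace
import Mathlib.RingTheory.Polynomial.Basic

/-!
# A cusp form all of whose periods vanish is zero (Eichler integral argument)
-/

set_option autoImplicit false

noncomputable section

open UpperHalfPlane Filter Polynomial Finset CongruenceSubgroup
open scoped Topology Manifold MatrixGroups ModularForm

namespace Fermat.Agent.HeckeFinite

theorem polyPrim_X_sub_pow (n : ℕ) (φ : ℍ → ℂ) (τ : ℍ) :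
    polyPrim n φ ((X - C (τ : ℂ)) ^ n) τ =
      (-1 : ℂ) ^ n * n.factorial * prim^[n + 1] φ τ := by
  rw [polyPrim_apply, Finset.sum_eq_single n]
  · rw [iterate_derivative_X_sub_pow_self]
    simp
  · intro m hm hmn
    have hlt : m < n := lt_of_le_of_ne (Nat.lt_succ_iff.mp (mem_range.mp hm)) hmn
    rw [iterate_derivative_X_sub_pow]
    simp [zero_pow (Nat.sub_ne_zero_of_lt hlt)]
  · simp

theorem exists_eval_eq_const_of_periodic {p : ℂ[X]} {a : ℂ} (ha : a ≠ 0)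
    (h : ∀ t : ℂ, 0 < t.im → p.eval (t + a) = p.eval t) : ∃ c, ∀ t, p.eval t = c := by
  have hp : p.comp (X + C a) = p := eq_of_eval_nonreal fun t ht => by simpa using h t ht
  have hall : ∀ t, p.eval (t + a) = p.eval t := fun t => by
    conv_rhs => rw [← hp]
    simp
  have hm : ∀ m : ℕ, p.eval ((m : ℂ) * a) = p.eval 0 := by
    intro m
    induction m with
    | zero => simp
    | succ m ih => rw [Nat.cast_succ, add_mul, one_mul, hall, ih]
  refine ⟨p.eval 0, fun t => ?_⟩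
  have hC : p = C (p.eval 0) := by
    refine eq_of_infinite_eval_eq _ _
      (Set.infinite_of_injective_forall_mem (f := fun m : ℕ => (m : ℂ) * a) ?_ ?_)
    · intro x y hxy
      exact Nat.cast_injective (mul_right_cancel₀ ha hxy)
    · intro m
      show p.eval ((m : ℂ) * a) = (C (p.eval 0)).eval ((m : ℂ) * a)
      rw [hm, eval_C]
  conv_lhs => rw [hC]
  rw [eval_C]

variable {N : ℕ} [NeZero N] {k : ℤ} {n : ℕ}

omit [NeZero N] in
theorem periodConst_sum {ι : Type*} (f : CuspForm (Gamma0 N) k) (δ : SL(2, ℤ)) (s : Finset ι)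
    (a : ι → ℂ) (Q : ι → ℂ[X]) :
    periodConst n f δ (∑ i ∈ s, a i • Q i) = ∑ i ∈ s, a i * periodConst n f δ (Q i) := by
  simp only [periodConst, map_sum, map_smul, Finset.sum_apply, Pi.smul_apply, smul_eq_mul,
    mul_sub, Finset.sum_sub_distrib]

/-- The polynomial by which two Eichler integrals differ at the cusp `δ∞`. -/
def corrPoly (n : ℕ) (f : CuspForm (Gamma0 N) k) (δ : SL(2, ℤ)) : ℂ[X] :=
  ∑ j ∈ range (n + 1), C (periodConst n f δ (X ^ j) * (n.choose j : ℂ)) *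
    (C ((δ 1 0 : ℤ) : ℂ) * X + C ((δ 1 1 : ℤ) : ℂ)) ^ j *
      (-(C ((δ 0 0 : ℤ) : ℂ) * X + C ((δ 0 1 : ℤ) : ℂ))) ^ (n - j)

theorem pAct_denom_pow (δ : SL(2, ℤ)) (τ : ℍ) :
    pAct n (δ : GL (Fin 2) ℝ).val
      ((denom (δ : GL (Fin 2) ℝ) τ) ^ n • (X - C ((δ • τ : ℍ) : ℂ)) ^ n) =
      (X - C (τ : ℂ)) ^ n := by
  set g : GL (Fin 2) ℝ := (δ : GL (Fin 2) ℝ) with hgdef
  have hg : g.val.det = 1 := det_SL_val δ
  have hg0 : 0 < g.val.det := by rw [hg]; exact one_pos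
  have hQ : ((denom g τ) ^ n • (X - C ((δ • τ : ℍ) : ℂ)) ^ n).natDegree ≤ n :=
    (natDegree_smul_le _ _).trans (by simp)
  refine eq_of_eval_nonreal fun t ht => ?_
  obtain ⟨s, rfl⟩ : ∃ s : ℍ, (s : ℂ) = t := ⟨⟨t, ht⟩, rfl⟩
  rw [eval_pAct_smul n hg0 hQ]
  simp only [eval_smul, eval_pow, eval_sub, eval_X, eval_C, smul_eq_mul]
  rw [← mul_pow, ← mul_pow, show (δ • τ : ℍ) = g • τ from rfl, coe_smul_of_det_pos hg0,
    coe_smul_of_det_pos hg0]
  congr 1
  have h1 := denom_ne_zero g τ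
  have h2 := denom_ne_zero g s
  have hdet : (g.val 0 0 : ℂ) * g.val 1 1 - (g.val 0 1 : ℂ) * g.val 1 0 = 1 := by
    have := congrArg Complex.ofReal hg
    rw [Matrix.det_fin_two] at this
    simpa using this
  field_simp
  simp only [num, denom]
  linear_combination ((s : ℂ) - τ) * hdet

theorem denom_SL (δ : SL(2, ℤ)) (τ : ℍ) :
    denom (δ : GL (Fin 2) ℝ) τ = ((δ 1 0 : ℤ) : ℂ) * τ + ((δ 1 1 : ℤ) : ℂ) := by
  simp [denom]

theorem num_SL (δ : SL(2, ℤ)) (τ : ℍ) :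
    num (δ : GL (Fin 2) ℝ) τ = ((δ 0 0 : ℤ) : ℂ) * τ + ((δ 0 1 : ℤ) : ℂ) := by
  simp [num]

/-- The Eichler integral transformed to the cusp `δ∞`. -/
theorem eichler_slash (hk : k = n + 2) (f : CuspForm (Gamma0 N) k) (δ : SL(2, ℤ)) (τ : ℍ) :
    (-1 : ℂ) ^ n * n.factorial * ((prim^[n + 1] ⇑f) ∣[-(n : ℤ)] δ) τ =
      (corrPoly n f δ).eval (τ : ℂ) +
        (-1 : ℂ) ^ n * n.factorial * prim^[n + 1] ((⇑f) ∣[k] δ) τ := by
  have hQ : ((denom (δ : GL (Fin 2) ℝ) τ) ^ n • (X - C ((δ • τ : ℍ) : ℂ)) ^ n).natDegree ≤ n :=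
    (natDegree_smul_le _ _).trans (by simp)
  have h := polyPrim_smul_SL hk f δ hQ τ
  rw [pAct_denom_pow, polyPrim_X_sub_pow, map_smul, Pi.smul_apply, polyPrim_X_sub_pow,
    smul_eq_mul] at h
  rw [ModularForm.SL_slash_apply, neg_neg, zpow_natCast]
  have hexp : (denom (δ : GL (Fin 2) ℝ) τ) ^ n • (X - C ((δ • τ : ℍ) : ℂ)) ^ n =
      ∑ j ∈ range (n + 1), ((n.choose j : ℂ) * (denom (δ : GL (Fin 2) ℝ) τ ^ j *
        (-num (δ : GL (Fin 2) ℝ) τ) ^ (n - j))) • (X : ℂ[X]) ^ j := by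
    have hg0 : 0 < (δ : GL (Fin 2) ℝ).val.det := by rw [det_SL_val]; exact one_pos
    have hmul : denom (δ : GL (Fin 2) ℝ) τ * ((δ • τ : ℍ) : ℂ) = num (δ : GL (Fin 2) ℝ) τ := by
      rw [← SL_smul_coe, coe_smul_of_det_pos hg0, mul_div_cancel₀ _ (denom_ne_zero _ _)]
    rw [smul_eq_C_mul, C_pow, ← mul_pow, mul_sub, ← C_mul, hmul, sub_eq_add_neg, ← C_neg, add_pow]
    refine sum_congr rfl fun j _ => ?_
    rw [smul_eq_C_mul, C_mul, C_mul, C_pow, C_pow, mul_pow, map_natCast]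
    ring
  have hc : periodConst n f δ ((denom (δ : GL (Fin 2) ℝ) τ) ^ n •
      (X - C ((δ • τ : ℍ) : ℂ)) ^ n) = (corrPoly n f δ).eval (τ : ℂ) := by
    rw [hexp, periodConst_sum, corrPoly, eval_finsetSum]
    refine sum_congr rfl fun j _ => ?_
    simp only [eval_mul, eval_pow, eval_neg, eval_add, eval_C, eval_X, denom_SL, num_SL]
    ring
  rw [hc] at h
  linear_combination h

/-- All periods vanish. -/
def PeriodsVanish (n : ℕ) (f : CuspForm (Gamma0 N) k) : Prop :=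
  ∀ γ ∈ Gamma0 N, ∀ j ≤ n, period N k n γ (X ^ j) f = 0

theorem eichler_invariant (hk : k = n + 2) {f : CuspForm (Gamma0 N) k} (hf : PeriodsVanish n f)
    {γ : SL(2, ℤ)} (hγ : γ ∈ Gamma0 N) :
    (prim^[n + 1] ⇑f) ∣[-(n : ℤ)] γ = prim^[n + 1] ⇑f := by
  funext τ
  have h := eichler_slash hk f γ τ
  rw [slash_eq_self_of_mem f hγ] at h
  have h0 : corrPoly n f γ = 0 := Finset.sum_eq_zero fun j hj => by
    rw [periodConst_eq_period f hγ, hf γ hγ j (Nat.lt_succ_iff.mp (mem_range.mp hj))]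
    simp
  rw [h0, eval_zero, zero_add] at h
  exact mul_left_cancel₀ (by simp [Nat.factorial_ne_zero]) h

theorem eichler_slash_eq (hk : k = n + 2) {f : CuspForm (Gamma0 N) k} (hf : PeriodsVanish n f)
    (δ : SL(2, ℤ)) : ∃ c : ℂ, ∀ τ : ℍ, ((prim^[n + 1] ⇑f) ∣[-(n : ℤ)] δ) τ =
      c + prim^[n + 1] ((⇑f) ∣[k] δ) τ := by
  have hne : ((-1 : ℂ) ^ n * n.factorial) ≠ 0 := by simp [Nat.factorial_ne_zero]
  have hper : ((prim^[n + 1] ⇑f) ∣[-(n : ℤ)] δ) ∣[-(n : ℤ)] (ModularGroup.T ^ (N : ℤ)) =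
      (prim^[n + 1] ⇑f) ∣[-(n : ℤ)] δ := by
    have e : δ * ModularGroup.T ^ (N : ℤ) = (δ * ModularGroup.T ^ (N : ℤ) * δ⁻¹) * δ := by group
    rw [← SlashAction.slash_mul, e, SlashAction.slash_mul,
      eichler_invariant hk hf (conj_T_zpow_mem_Gamma0 δ)]
  have h1 := periodic_of_slash_T_zpow hper
  have h2 := ((cuspLike_slash f δ).iterate_prim (n + 1)).periodic
  obtain ⟨c, hc⟩ := exists_eval_eq_const_of_periodic (p := corrPoly n f δ) (a := (N : ℂ))
    (by exact_mod_cast NeZero.ne N) (fun t ht => by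
      obtain ⟨τ, rfl⟩ : ∃ τ : ℍ, (τ : ℂ) = t := ⟨⟨t, ht⟩, rfl⟩
      have hpos : 0 < ((τ : ℂ) + (N : ℂ)).im := by simpa using τ.im_pos
      set τ' : ℍ := ⟨(τ : ℂ) + (N : ℂ), hpos⟩ with hτ'
      have e1 := eichler_slash hk f δ τ
      have e2 := eichler_slash hk f δ τ'
      have p1 : ((prim^[n + 1] ⇑f) ∣[-(n : ℤ)] δ) τ' = ((prim^[n + 1] ⇑f) ∣[-(n : ℤ)] δ) τ := by
        simpa [Function.Periodic, ofComplex_apply, ofComplex_apply_of_im_pos hpos, hτ'] using
          h1 (τ : ℂ)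
      have p2 : prim^[n + 1] ((⇑f) ∣[k] δ) τ' = prim^[n + 1] ((⇑f) ∣[k] δ) τ := by
        simpa [Function.Periodic, ofComplex_apply, ofComplex_apply_of_im_pos hpos, hτ'] using
          h2 (τ : ℂ)
      rw [p1, p2] at e2
      linear_combination e1 - e2)
  refine ⟨c / ((-1 : ℂ) ^ n * n.factorial), fun τ => mul_left_cancel₀ hne ?_⟩
  rw [eichler_slash hk f δ τ, hc, mul_add, mul_div_cancel₀ _ hne]

/-- **Injectivity of periods.** -/
theorem eq_zero_of_periodsVanish (hk : k = n + 2) {f : CuspForm (Gamma0 N) k}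
    (hf : PeriodsVanish n f) : f = 0 := by
  have hE := (cuspLike_cuspForm f).iterate_prim (n + 1)
  let E : ModularForm (Gamma0 N) (-(n : ℤ)) :=
    { toFun := prim^[n + 1] ⇑f
      slash_action_eq' := by
        rintro _ ⟨γ, hγ, rfl⟩
        exact eichler_invariant hk hf hγ
      holo' := hE.holo
      bdd_at_cusps' := by
        intro c hc
        rw [Subgroup.IsArithmetic.isCusp_iff_isCusp_SL2Z] at hc
        rw [OnePoint.isBoundedAt_iff_forall_SL2Z hc]
        intro δ _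
        obtain ⟨a, ha⟩ := eichler_slash_eq hk hf δ
        show IsBoundedAtImInfty ((prim^[n + 1] ⇑f) ∣[-(n : ℤ)] δ)
        rw [funext ha]
        exact (Filter.const_boundedAtFilter atImInfty a).add
          ((cuspLike_slash f δ).iterate_prim (n + 1)).bdd }
  have hzero : prim^[n + 1] ⇑f = 0 := by
    rcases Nat.eq_zero_or_pos n with hn | hn
    · obtain ⟨c, hc⟩ : ∃ c, (E : ℍ → ℂ) = Function.const ℍ c := by
        subst hn
        exact ModularForm.eq_const_of_weight_zero E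
      have h0 : Tendsto (E : ℍ → ℂ) atImInfty (𝓝 0) := hE.zero
      rw [hc] at h0
      have : c = 0 := tendsto_const_nhds_iff.mp h0
      show (E : ℍ → ℂ) = 0
      rw [hc, this]; rfl
    · show (E : ℍ → ℂ) = 0
      rw [ModularForm.isZero_of_neg_weight (by simpa using hn) E]
      rfl
  have hdown : ∀ m ≤ n + 1, prim^[n + 1 - m] ⇑f = 0 := by
    intro m
    induction m with
    | zero => intro _; exact hzero
    | succ m ih =>
      intro hm
      have h1 := (cuspLike_cuspForm f).isPrim_iterate (n + 1 - (m + 1))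
      rw [show n + 1 - (m + 1) + 1 = n + 1 - m by omega, ih (by omega)] at h1
      funext τ
      exact (h1 τ).unique (hasDerivAt_const _ _)
  have := hdown (n + 1) le_rfl
  rw [Nat.sub_self] at this
  exact DFunLike.coe_injective this

end Fermat.Agent.HeckeFinite
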