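import Fermat.Agent.HeckeFinite.Lattice
import Fermat.Agent.HeckeFinite.Injective
import Fermat.Prelude.Def_CuspForm_HeckeAlgebra
import Fermat.Prelude.Sol.S_ModularForm_heckeT_slash_eq_self_of_mem_Gamma0
import Mathlib.LinearAlgebra.FreeModule.Finite.Matrix

/-!
# The Hecke algebra of cusp forms is finite over `ℤ`
-/

set_option autoImplicit false

noncomputable section

open UpperHalfPlane Filter Polynomial Finset CongruenceSubgroup
open scoped Topology Manifold MatrixGroups ModularForm OnePoint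
open P2MW.S_ModularForm_heckeT_slash_eq_self_of_mem_Gamma0.ModularForm.HeckeSlashInvariance
  (heckeRep heckeRep_infty heckeRep_coe heckeRep_mul heckeT_eq_sum_onePoint heckeU_eq_sum_zmod
    affinePerm heckeMatrix_mul_of_dvd redMatrix)

namespace Fermat.Agent.HeckeFinite

theorem heckeMatrix_det_pos (p j : ℕ) : 0 < (ModularForm.heckeMatrix p j).val.det := by
  have := ModularForm.det_heckeMatrix_pos p j
  rwa [Matrix.GeneralLinearGroup.val_det_apply] at this

theorem heckeDiagMatrix_det_pos (p : ℕ) : 0 < (ModularForm.heckeDiagMatrix p).val.det := by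
  have := ModularForm.det_heckeDiagMatrix_pos p
  rwa [Matrix.GeneralLinearGroup.val_det_apply] at this

theorem heckeMatrix_lowerLeft {p : ℕ} (hp : p ≠ 0) (j : ℕ) :
    (ModularForm.heckeMatrix p j).val 1 0 = 0 := by
  simp [ModularForm.val_heckeMatrix hp]

theorem heckeMatrix_integral {p : ℕ} (hp : p ≠ 0) (j : ℕ) : ∃ A : Matrix (Fin 2) (Fin 2) ℤ,
    (ModularForm.heckeMatrix p j).val = A.map (Int.cast : ℤ → ℝ) :=
  ⟨!![1, (j : ℤ); 0, (p : ℤ)], by
    rw [ModularForm.val_heckeMatrix hp]
    ext a b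
    fin_cases a <;> fin_cases b <;> simp⟩

theorem cosetData_heckeU {N p : ℕ} [NeZero p] (hpN : p ∣ N) :
    CosetData N (ZMod p) (fun x => ModularForm.heckeMatrix p x.val) where
  det_pos x := heckeMatrix_det_pos p x.val
  lowerLeft x := heckeMatrix_lowerLeft (NeZero.ne p) x.val
  integral x := heckeMatrix_integral (NeZero.ne p) x.val
  perm γ hγ := by
    have hcN : (N : ℤ) ∣ γ 1 0 := (ZMod.intCast_zmod_eq_zero_iff_dvd _ _).mp (Gamma0_mem.mp hγ)
    have hc : (p : ℤ) ∣ γ 1 0 := (Int.natCast_dvd_natCast.mpr hpN).trans hcN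
    refine ⟨affinePerm γ ((ZMod.intCast_zmod_eq_zero_iff_dvd _ _).mpr hc), fun x => ?_⟩
    obtain ⟨g', hg', hmul⟩ := heckeMatrix_mul_of_dvd γ hc x
    refine ⟨g', Gamma0_mem.mpr ?_, hmul⟩
    rw [hg']
    push_cast
    rw [Gamma0_mem.mp hγ, mul_zero]

theorem cosetData_heckeT {N p : ℕ} [Fact p.Prime] (hpN : ¬ p ∣ N) :
    CosetData N (OnePoint (ZMod p)) (heckeRep p) where
  det_pos x := by
    induction x using OnePoint.rec with
    | infty => exact heckeDiagMatrix_det_pos p
    | coe j => exact heckeMatrix_det_pos p j.val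
  lowerLeft x := by
    have hp : p ≠ 0 := (Fact.out : p.Prime).ne_zero
    induction x using OnePoint.rec with
    | infty => rw [heckeRep_infty]; simp [ModularForm.val_heckeDiagMatrix hp]
    | coe j => exact heckeMatrix_lowerLeft hp j.val
  integral x := by
    have hp : p ≠ 0 := (Fact.out : p.Prime).ne_zero
    induction x using OnePoint.rec with
    | infty =>
      refine ⟨!![(p : ℤ), 0; 0, 1], ?_⟩
      rw [heckeRep_infty, ModularForm.val_heckeDiagMatrix hp]
      ext a b
      fin_cases a <;> fin_cases b <;> simp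
    | coe j => exact heckeMatrix_integral hp j.val
  perm γ hγ := by
    have hcN : (N : ℤ) ∣ γ 1 0 := (ZMod.intCast_zmod_eq_zero_iff_dvd _ _).mp (Gamma0_mem.mp hγ)
    refine ⟨MulAction.toPerm (redMatrix p γ), fun x => ?_⟩
    obtain ⟨g', hg', hmul⟩ := heckeRep_mul hpN γ hcN x
    exact ⟨g', Gamma0_mem.mpr ((ZMod.intCast_zmod_eq_zero_iff_dvd _ _).mpr hg'), hmul⟩

variable {N : ℕ} [NeZero N] {k : ℤ} {n : ℕ}

/-- Every element of the Hecke algebra preserves the period lattice. -/
theorem comp_mem_periodLattice (hk : k = n + 2) {S : Set ℕ}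
    {t : Module.End ℂ (CuspForm (Gamma0 N) k)} (ht : t ∈ CuspForm.heckeAlgebra N k S)
    {φ : CuspForm (Gamma0 N) k →ₗ[ℂ] ℂ} (hφ : φ ∈ periodLattice N k n) :
    φ ∘ₗ t ∈ periodLattice N k n := by
  induction ht using Algebra.adjoin_induction generalizing φ with
  | mem t h =>
    rcases h with ⟨ℓ, hℓ, hℓN, -, rfl⟩ | ⟨q, hqN, hq, -, rfl⟩
    · have : Fact ℓ.Prime := ⟨hℓ⟩
      exact period_comp_mem hk (cosetData_heckeT hℓN) _ (fun f => by
        rw [CuspForm.coe_heckeTLin_apply, heckeT_eq_sum_onePoint]) hφ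
    · have : NeZero q := ⟨hq.ne_zero⟩
      exact period_comp_mem hk (cosetData_heckeU hqN) _ (fun f => by
        rw [CuspForm.coe_heckeULin_apply, heckeU_eq_sum_zmod]) hφ
  | algebraMap r =>
    have : φ ∘ₗ (algebraMap ℤ (Module.End ℂ (CuspForm (Gamma0 N) k)) r) = r • φ := by
      ext f
      simp
    rw [this]
    exact Submodule.smul_mem _ r hφ
  | add x y _ _ hx hy => rw [LinearMap.comp_add]; exact add_mem (hx hφ) (hy hφ)
  | mul x y _ _ hx hy =>
    rw [Module.End.mul_eq_comp, ← LinearMap.comp_assoc]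
    exact hy (hx hφ)

theorem eq_zero_of_forall_periodLattice (hk : k = n + 2) {f : CuspForm (Gamma0 N) k}
    (h : ∀ φ ∈ periodLattice N k n, φ f = 0) : f = 0 :=
  eq_zero_of_periodsVanish hk fun _γ hγ j hj =>
    h _ (period_mem_periodLattice N k n hγ (Submodule.subset_span ⟨j, hj, rfl⟩))

theorem finite_heckeAlgebra_of_eq (hk : k = n + 2) (S : Set ℕ) :
    Module.Finite ℤ (CuspForm.heckeAlgebra N k S) := by
  have : Module.Finite ℤ (periodLattice N k n) :=
    Module.Finite.iff_fg.mpr (periodLattice_fg hk)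
  obtain ⟨m, gens, hgens⟩ := Module.Finite.exists_fin (R := ℤ) (M := periodLattice N k n)
  have : IsNoetherian ℤ (periodLattice N k n) := isNoetherian_of_isNoetherianRing_of_finite ℤ _
  let Φ : CuspForm.heckeAlgebra N k S →ₗ[ℤ] (Fin m → periodLattice N k n) :=
    { toFun := fun t i => ⟨(gens i).1 ∘ₗ t.1, comp_mem_periodLattice hk t.2 (gens i).2⟩
      map_add' := fun a b => funext fun i => Subtype.ext (LinearMap.comp_add _ _ _)
      map_smul' := fun c a => funext fun i => Subtype.ext <| by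
        ext f
        simp }
  refine Module.Finite.of_injective Φ ((injective_iff_map_eq_zero Φ).mpr fun t ht => ?_)
  apply Subtype.ext
  refine LinearMap.ext fun f => ?_
  show t.1 f = 0
  refine eq_zero_of_forall_periodLattice hk fun φ hφ => ?_
  have hmem : (⟨φ, hφ⟩ : periodLattice N k n) ∈ Submodule.span ℤ (Set.range gens) := by
    rw [hgens]; trivial
  have key : ∀ ψ ∈ Submodule.span ℤ (Set.range gens), (ψ : periodLattice N k n).1 (t.1 f) = 0 := by
    intro ψ hψ
    induction hψ using Submodule.span_induction with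
    | mem x hx =>
      obtain ⟨i, rfl⟩ := hx
      exact DFunLike.congr_fun (congrArg Subtype.val (congrFun ht i)) f
    | zero => rfl
    | add x y _ _ hx hy =>
      show x.1 (t.1 f) + y.1 (t.1 f) = 0
      rw [hx, hy, add_zero]
    | smul c x _ hx =>
      show (c • x.1) (t.1 f) = 0
      rw [LinearMap.smul_apply, hx, smul_zero]
  exact key _ hmem

/-- Cusp forms of weight `≤ 1` on `Γ₀(N)` vanish. -/
theorem subsingleton_cuspForm_of_le_one (hk : k ≤ 1) :
    Subsingleton (CuspForm (Gamma0 N) k) := by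
  refine subsingleton_of_forall_eq 0 fun f => ?_
  let F : ModularForm (Gamma0 N) k :=
    { toFun := f
      slash_action_eq' := f.slash_action_eq'
      holo' := f.holo'
      bdd_at_cusps' := fun hc g hg => (f.zero_at_cusps' hc g hg).boundedAtFilter }
  apply DFunLike.coe_injective
  show (F : ℍ → ℂ) = 0
  rcases lt_trichotomy k 0 with h | h | h
  · rw [ModularForm.isZero_of_neg_weight h F]; rfl
  · subst h
    obtain ⟨c, hc⟩ := ModularForm.eq_const_of_weight_zero F
    have h0 : Tendsto (F : ℍ → ℂ) atImInfty (𝓝 0) := (cuspLike_cuspForm f).zero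
    rw [hc] at h0
    rw [hc, tendsto_const_nhds_iff.mp h0]; rfl
  · obtain rfl : k = 1 := le_antisymm hk h
    have hmem : (-1 : GL (Fin 2) ℝ) ∈ (Gamma0 N : Subgroup (GL (Fin 2) ℝ)) :=
      ⟨-1, Gamma0_mem.mpr (by simp), by ext; simp⟩
    rw [ModularForm.eq_zero_of_neg_one_mem hmem odd_one F]; rfl

theorem finite_heckeAlgebra (N : ℕ) [NeZero N] (k : ℤ) (S : Set ℕ) :
    Module.Finite ℤ (CuspForm.heckeAlgebra N k S) := by
  rcases le_or_gt k 1 with h | h
  · have := subsingleton_cuspForm_of_le_one (N := N) h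
    infer_instance
  · obtain ⟨n, hn⟩ : ∃ n : ℕ, k = n + 2 := ⟨(k - 2).toNat, by omega⟩
    exact finite_heckeAlgebra_of_eq hn S

end Fermat.Agent.HeckeFinite
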