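import Fermat.Agent.HeckeFinite.Period
import Mathlib.GroupTheory.Schreier
import Mathlib.LinearAlgebra.Matrix.FixedDetMatrices
import Mathlib.RingTheory.Noetherian.Basic

/-!
# The lattice of period functionals and its stability under double coset operators
-/

set_option autoImplicit false

noncomputable section

open UpperHalfPlane Filter Polynomial Finset CongruenceSubgroup
open scoped Topology Manifold MatrixGroups ModularForm

namespace Fermat.Agent.HeckeFinite

variable (N : ℕ) [NeZero N] (k : ℤ) (n : ℕ)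

/-- The `ℤ`-span of the period functionals. -/
def periodLattice : Submodule ℤ (CuspForm (Gamma0 N) k →ₗ[ℂ] ℂ) :=
  Submodule.span ℤ {φ | ∃ γ ∈ Gamma0 N, ∃ Q ∈ intPolys n, φ = period N k n γ Q}

theorem period_mem_periodLattice {γ : SL(2, ℤ)} (hγ : γ ∈ Gamma0 N) {Q : ℂ[X]}
    (hQ : Q ∈ intPolys n) : period N k n γ Q ∈ periodLattice N k n :=
  Submodule.subset_span ⟨γ, hγ, Q, hQ, rfl⟩

theorem Gamma0_fg : (Gamma0 N).FG := by
  have : Group.FG SL(2, ℤ) := by
    rw [Group.fg_iff]
    exact ⟨_, SpecialLinearGroup.SL2Z_generators, Set.toFinite _⟩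
  exact (Group.fg_iff_subgroup_fg _).mp (Subgroup.fg_of_index_ne_zero (Gamma0 N))

variable {N k n}

theorem coe_SL_eq_map (γ : SL(2, ℤ)) :
    (γ : GL (Fin 2) ℝ).val = (γ : Matrix (Fin 2) (Fin 2) ℤ).map (Int.cast : ℤ → ℝ) := by
  ext i j
  simp

theorem pAct_SL_mem_intPolys (γ : SL(2, ℤ)) {Q : ℂ[X]} (hQ : Q ∈ intPolys n) :
    pAct n (γ : GL (Fin 2) ℝ).val Q ∈ intPolys n := by
  rw [coe_SL_eq_map]
  exact pAct_mem_intPolys _ hQ

theorem periodLattice_fg (hk : k = n + 2) : (periodLattice N k n).FG := by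
  obtain ⟨S, hS⟩ := Gamma0_fg N
  set U : Submodule ℤ (CuspForm (Gamma0 N) k →ₗ[ℂ] ℂ) := Submodule.span ℤ
    ((fun p : SL(2, ℤ) × ℕ => period N k n p.1 (X ^ p.2)) '' ↑(S ×ˢ Finset.range (n + 1)))
    with hU
  suffices h : periodLattice N k n ≤ U from
    Submodule.FG.of_le (Submodule.fg_span ((Finset.finite_toSet _).image _)) h
  rw [periodLattice, Submodule.span_le]
  rintro φ ⟨γ, hγ, Q, hQ, rfl⟩
  rw [← hS] at hγ
  revert Q hQ
  induction hγ using Subgroup.closure_induction with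
  | mem s hs =>
    intro Q hQ
    induction hQ using Submodule.span_induction with
    | mem x hx =>
      obtain ⟨j, hj, rfl⟩ := hx
      refine Submodule.subset_span ⟨(s, j), ?_, rfl⟩
      simpa [Finset.mem_product] using ⟨hs, hj⟩
    | zero =>
      rw [show period N k n s 0 = 0 by ext f; simp [period_apply]]
      exact zero_mem _
    | add x y _ _ hx hy =>
      rw [period_add]
      exact add_mem hx hy
    | smul c x _ hx =>
      rw [← Int.cast_smul_eq_zsmul ℂ, period_smul, Int.cast_smul_eq_zsmul]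
      exact U.smul_mem c hx
  | one =>
    intro Q hQ
    rw [period_one (natDegree_le_of_mem_intPolys hQ)]
    exact zero_mem _
  | mul a b ha hb iha ihb =>
    intro Q hQ
    rw [period_mul hk (hS ▸ ha) (hS ▸ hb) (natDegree_le_of_mem_intPolys hQ)]
    exact add_mem (iha Q hQ) (ihb _ (pAct_SL_mem_intPolys a hQ))
  | inv a ha iha =>
    intro Q hQ
    have ha' : a ∈ Gamma0 N := hS ▸ ha
    have h := period_mul hk (inv_mem ha') ha' (natDegree_le_of_mem_intPolys hQ)
    rw [inv_mul_cancel, period_one (natDegree_le_of_mem_intPolys hQ)] at h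
    rw [eq_neg_of_add_eq_zero_left h.symm]
    exact neg_mem (iha _ (pAct_SL_mem_intPolys a⁻¹ hQ))

/-- Integral upper triangular coset representatives, permuted by `Γ₀(N)` up to the left action. -/
structure CosetData (N : ℕ) (ι : Type*) (α : ι → GL (Fin 2) ℝ) : Prop where
  det_pos : ∀ i, 0 < (α i).val.det
  lowerLeft : ∀ i, (α i).val 1 0 = 0
  integral : ∀ i, ∃ A : Matrix (Fin 2) (Fin 2) ℤ, (α i).val = A.map (Int.cast : ℤ → ℝ)
  perm : ∀ γ ∈ Gamma0 N, ∃ σ : Equiv.Perm ι, ∀ i, ∃ γ' ∈ Gamma0 N,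
    α i * (γ : GL (Fin 2) ℝ) = (γ' : GL (Fin 2) ℝ) * α (σ i)

theorem zeroOnLines_comp_smul {F : ℍ → ℂ} (hF : ZeroOnLines F) {g : GL (Fin 2) ℝ}
    (hg : 0 < g.val.det) (hg10 : g.val 1 0 = 0) : ZeroOnLines fun τ => F (g • τ) := by
  intro x
  have hdet : 0 < g.val 0 0 * g.val 1 1 := by
    simpa [Matrix.det_fin_two, hg10] using hg
  have hd : g.val 1 1 ≠ 0 := right_ne_zero_of_mul hdet.ne'
  have ha : 0 < g.val 0 0 / g.val 1 1 := by
    rw [← mul_div_mul_right _ _ hd]
    exact div_pos hdet (mul_self_pos.mpr hd)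
  have hlim : Tendsto (fun y : ℝ => g.val 0 0 / g.val 1 1 * y) atTop atTop :=
    tendsto_id.const_mul_atTop ha
  refine ((hF ((g.val 0 0 * x + g.val 0 1) / g.val 1 1)).comp hlim).congr' ?_
  filter_upwards [eventually_gt_atTop (0 : ℝ)] with y hy
  simp only [Function.comp_apply]
  congr 1
  ext
  rw [coe_linePt (mul_pos ha hy), coe_smul_of_det_pos hg, num, denom, coe_linePt hy, hg10]
  have hd' : (g.val 1 1 : ℂ) ≠ 0 := Complex.ofReal_ne_zero.mpr hd
  simp only [Complex.ofReal_zero, zero_mul, zero_add]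
  push_cast
  field_simp
  ring

variable {ι : Type*} [Fintype ι] {α : ι → GL (Fin 2) ℝ}

theorem adjugate_map_intCast (A : Matrix (Fin 2) (Fin 2) ℤ) :
    (A.map (Int.cast : ℤ → ℝ)).adjugate = A.adjugate.map (Int.cast : ℤ → ℝ) :=
  ((Int.castRingHom ℝ).map_adjugate A).symm

omit [NeZero N] [Fintype ι] in
theorem CosetData.pAct_adjugate_mem (hα : CosetData N ι α) (i : ι) {Q : ℂ[X]}
    (hQ : Q ∈ intPolys n) : pAct n (α i).val.adjugate Q ∈ intPolys n := by
  obtain ⟨A, hA⟩ := hα.integral i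
  rw [hA, adjugate_map_intCast]
  exact pAct_mem_intPolys _ hQ

/-- The primitives of `∑ f ∣ αᵢ`. -/
theorem polyPrim_sum_slash (hk : k = n + 2) (hα : CosetData N ι α) (f g : CuspForm (Gamma0 N) k)
    (hfg : ⇑g = ∑ i, (⇑f) ∣[k] α i) {Q : ℂ[X]} (hQ : Q.natDegree ≤ n) (τ : ℍ) :
    polyPrim n g Q τ = ∑ i, polyPrim n f (pAct n (α i).val.adjugate Q) (α i • τ) := by
  have hprim : IsPrim (fun τ => ∑ i, polyPrim n f (pAct n (α i).val.adjugate Q) (α i • τ))
      (fun τ => Q.eval (τ : ℂ) * g τ) := by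
    have h := IsPrim.sum univ fun i _ =>
      isPrim_polyPrim_smul (cuspLike_cuspForm f) hk (hα.det_pos i)
        (natDegree_pAct_le n (α i).val.adjugate Q) (n := n)
    convert h using 1
    · funext τ
      simp [Finset.sum_apply]
    · funext τ
      rw [hfg, Finset.sum_apply, Finset.sum_apply, mul_sum]
      refine sum_congr rfl fun i _ => ?_
      have hadj : (α i).val.adjugate.det ≠ 0 := by
        rw [Matrix.det_adjugate]
        simpa using (hα.det_pos i).ne'
      rw [pAct_pAct n hadj (hα.det_pos i).ne' hQ, Matrix.adjugate_mul,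
        pAct_scalar n (hα.det_pos i).ne' hQ, eval_smul, smul_eq_mul, mul_assoc (_ ^ n),
        inv_mul_cancel_left₀ (pow_ne_zero _ (Complex.ofReal_ne_zero.mpr (hα.det_pos i).ne'))]
  have hzero : ZeroOnLines
      (fun τ => ∑ i, polyPrim n f (pAct n (α i).val.adjugate Q) (α i • τ)) := by
    intro x
    have := tendsto_finsetSum univ fun i _ => zeroOnLines_comp_smul
      ((cuspLike_cuspForm f).polyPrim_zeroOnLines (n := n) (pAct n (α i).val.adjugate Q))
      (hα.det_pos i) (hα.lowerLeft i) x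
    simpa using this
  exact congrFun ((cuspLike_cuspForm g).polyPrim_eq hQ hprim hzero) τ

theorem adjugate_mul_SL {a a' : GL (Fin 2) ℝ} {γ γ' : SL(2, ℤ)}
    (h : a * (γ : GL (Fin 2) ℝ) = (γ' : GL (Fin 2) ℝ) * a') :
    a.val.adjugate * (γ' : GL (Fin 2) ℝ).val = (γ : GL (Fin 2) ℝ).val * a'.val.adjugate := by
  have h1 : a.val * (γ : GL (Fin 2) ℝ).val = (γ' : GL (Fin 2) ℝ).val * a'.val := by
    simpa only [Matrix.GeneralLinearGroup.coe_mul] using
      congrArg (fun g : GL (Fin 2) ℝ => g.val) h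
  have h2 := congrArg Matrix.adjugate h1
  rw [Matrix.adjugate_mul_distrib, Matrix.adjugate_mul_distrib] at h2
  have hg := det_SL_val γ
  have hg' := det_SL_val γ'
  revert h2 hg hg'
  generalize (γ : GL (Fin 2) ℝ).val = G
  generalize (γ' : GL (Fin 2) ℝ).val = G'
  intro h2 hg hg'
  calc a.val.adjugate * G' = G * (G.adjugate * a.val.adjugate) * G' := by
        rw [← mul_assoc G, Matrix.mul_adjugate, hg, one_smul, one_mul]
    _ = G * a'.val.adjugate := by
        rw [h2, ← mul_assoc, mul_assoc _ _ G', Matrix.adjugate_mul, hg', one_smul, mul_one]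

/-- Periods of `∑ f ∣ αᵢ` are integral combinations of periods of `f`. -/
theorem period_comp_mem (hk : k = n + 2) (hα : CosetData N ι α)
    (T : CuspForm (Gamma0 N) k →ₗ[ℂ] CuspForm (Gamma0 N) k)
    (hT : ∀ f, ⇑(T f) = ∑ i, (⇑f) ∣[k] α i) {φ : CuspForm (Gamma0 N) k →ₗ[ℂ] ℂ}
    (hφ : φ ∈ periodLattice N k n) : φ ∘ₗ T ∈ periodLattice N k n := by
  induction hφ using Submodule.span_induction with
  | zero => simp
  | add x y _ _ hx hy => rw [LinearMap.add_comp]; exact add_mem hx hy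
  | smul c x _ hx => rw [LinearMap.smul_comp]; exact Submodule.smul_mem _ c hx
  | mem φ h =>
    obtain ⟨γ, hγ, Q, hQ, rfl⟩ := h
    obtain ⟨σ, hσ⟩ := hα.perm γ hγ
    choose γ' hγ' hmul using hσ
    have hQn := natDegree_le_of_mem_intPolys hQ
    suffices period N k n γ Q ∘ₗ T =
        ∑ i, period N k n (γ' i) (pAct n (α i).val.adjugate Q) by
      rw [this]
      exact sum_mem fun i _ =>
        period_mem_periodLattice N k n (hγ' i) (hα.pAct_adjugate_mem i hQ)
    ext f
    rw [LinearMap.comp_apply, LinearMap.sum_apply, period_apply,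
      polyPrim_sum_slash hk hα f (T f) (hT f) hQn,
      polyPrim_sum_slash hk hα f (T f) (hT f) (natDegree_pAct_le n _ Q)]
    have hterm : ∀ i, polyPrim n f (pAct n (α i).val.adjugate Q) (α i • γ • UpperHalfPlane.I) =
        period N k n (γ' i) (pAct n (α i).val.adjugate Q) f + polyPrim n f
          (pAct n (α (σ i)).val.adjugate (pAct n (γ : GL (Fin 2) ℝ).val Q))
          (α (σ i) • UpperHalfPlane.I) := by
      intro i
      rw [← SL_smul_coe γ, ← mul_smul, hmul i, mul_smul, SL_smul_coe,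
        polyPrim_smul_Gamma0 hk f (hγ' i) (natDegree_pAct_le n _ Q)]
      have hadj : ∀ j, (α j).val.adjugate.det ≠ 0 := fun j => by
        rw [Matrix.det_adjugate]; simpa using (hα.det_pos j).ne'
      rw [pAct_pAct n (hadj i) (by rw [det_SL_val]; exact one_ne_zero) hQn,
        pAct_pAct n (by rw [det_SL_val]; exact one_ne_zero) (hadj (σ i)) hQn]
      rw [adjugate_mul_SL (hmul i)]
    have hB := Equiv.sum_comp σ (fun j => polyPrim n f
      (pAct n (α j).val.adjugate (pAct n (γ : GL (Fin 2) ℝ).val Q)) (α j • UpperHalfPlane.I))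
    rw [Finset.sum_congr rfl fun i _ => hterm i, Finset.sum_add_distrib, hB]
    exact add_sub_cancel_right _ _

end Fermat.Agent.HeckeFinite
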