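import Mathlib.Algebra.Polynomial.Roots
import Mathlib.Analysis.Complex.UpperHalfPlane.MoebiusAction
import Mathlib.LinearAlgebra.Matrix.Adjugate

/-!
# The degree `n` action of matrices on polynomials

`polyAct n g Q = (cX+d)^n Q((aX+b)/(cX+d))` for `Q` of degree at most `n`.
-/

set_option autoImplicit false

noncomputable section

open Polynomial Finset
open scoped MatrixGroups

namespace Fermat.Agent.HeckeFinite

/-- `Q ↦ ∑ qⱼ (aX+b)^j (cX+d)^(n-j)`. -/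
def polyAct {R : Type*} [CommRing R] (n : ℕ) (g : Matrix (Fin 2) (Fin 2) R) : R[X] →ₗ[R] R[X] :=
  ∑ j ∈ range (n + 1),
    (lcoeff R j).smulRight ((C (g 0 0) * X + C (g 0 1)) ^ j * (C (g 1 0) * X + C (g 1 1)) ^ (n - j))

theorem polyAct_apply {R : Type*} [CommRing R] (n : ℕ) (g : Matrix (Fin 2) (Fin 2) R) (Q : R[X]) :
    polyAct n g Q = ∑ j ∈ range (n + 1), Q.coeff j •
      ((C (g 0 0) * X + C (g 0 1)) ^ j * (C (g 1 0) * X + C (g 1 1)) ^ (n - j)) := by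
  simp [polyAct, LinearMap.sum_apply]

theorem natDegree_polyAct_le {R : Type*} [CommRing R] (n : ℕ) (g : Matrix (Fin 2) (Fin 2) R)
    (Q : R[X]) : (polyAct n g Q).natDegree ≤ n := by
  rw [polyAct_apply]
  refine natDegree_sum_le_of_forall_le _ _ fun j hj => (natDegree_smul_le _ _).trans ?_
  have h1 : ∀ a b : R, (C a * X + C b).natDegree ≤ 1 := fun a b =>
    natDegree_linear_le
  refine natDegree_mul_le.trans ?_
  have hj' : j ≤ n := Nat.lt_succ_iff.mp (mem_range.mp hj)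
  have := (natDegree_pow_le (p := C (g 0 0) * X + C (g 0 1)) (n := j)).trans
    (Nat.mul_le_mul_left j (h1 _ _))
  have := (natDegree_pow_le (p := C (g 1 0) * X + C (g 1 1)) (n := n - j)).trans
    (Nat.mul_le_mul_left (n - j) (h1 _ _))
  omega

theorem map_polyAct {R S : Type*} [CommRing R] [CommRing S] (φ : R →+* S) (n : ℕ)
    (g : Matrix (Fin 2) (Fin 2) R) (Q : R[X]) :
    (polyAct n g Q).map φ = polyAct n (g.map φ) (Q.map φ) := by
  simp only [polyAct_apply, Polynomial.map_sum, Polynomial.map_smul, Polynomial.map_mul,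
    Polynomial.map_pow, Polynomial.map_add, map_C, map_X, coeff_map, Matrix.map_apply]

theorem eval_polyAct {K : Type*} [Field K] (n : ℕ) (g : Matrix (Fin 2) (Fin 2) K) {Q : K[X]}
    (hQ : Q.natDegree ≤ n) (t : K) (ht : g 1 0 * t + g 1 1 ≠ 0) :
    (polyAct n g Q).eval t =
      (g 1 0 * t + g 1 1) ^ n * Q.eval ((g 0 0 * t + g 0 1) / (g 1 0 * t + g 1 1)) := by
  rw [eval_eq_sum_range' (Nat.lt_succ_of_le hQ), mul_sum, polyAct_apply, eval_finsetSum]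
  refine sum_congr rfl fun j hj => ?_
  have hj' : j ≤ n := Nat.lt_succ_iff.mp (mem_range.mp hj)
  simp only [eval_smul, eval_mul, eval_pow, eval_add, eval_C, eval_X, smul_eq_mul]
  rw [div_pow]
  rw [← pow_sub_mul_pow (g 1 0 * t + g 1 1) hj']
  generalize hden : g 1 0 * t + g 1 1 = D at ht ⊢
  field_simp

/-- The action of a real matrix on complex polynomials. -/
def pAct (n : ℕ) (g : Matrix (Fin 2) (Fin 2) ℝ) : ℂ[X] →ₗ[ℂ] ℂ[X] :=
  polyAct n (g.map Complex.ofRealHom)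

theorem natDegree_pAct_le (n : ℕ) (g : Matrix (Fin 2) (Fin 2) ℝ) (Q : ℂ[X]) :
    (pAct n g Q).natDegree ≤ n := natDegree_polyAct_le _ _ _

theorem denom_coe_ne_zero {g : Matrix (Fin 2) (Fin 2) ℝ} (hg : g.det ≠ 0) {t : ℂ} (ht : t.im ≠ 0) :
    (g 1 0 : ℂ) * t + g 1 1 ≠ 0 := by
  intro h
  have him := congrArg Complex.im h
  have hre := congrArg Complex.re h
  simp at him hre
  have hc : g 1 0 = 0 := him.resolve_right ht
  have hd : g 1 1 = 0 := by simpa [hc] using hre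
  exact hg (by simp [Matrix.det_fin_two, hc, hd])

theorem eval_pAct (n : ℕ) {g : Matrix (Fin 2) (Fin 2) ℝ} (hg : g.det ≠ 0) {Q : ℂ[X]}
    (hQ : Q.natDegree ≤ n) {t : ℂ} (ht : t.im ≠ 0) :
    (pAct n g Q).eval t = ((g 1 0 : ℂ) * t + g 1 1) ^ n *
      Q.eval (((g 0 0 : ℂ) * t + g 0 1) / ((g 1 0 : ℂ) * t + g 1 1)) :=
  eval_polyAct n _ hQ t (denom_coe_ne_zero hg ht)

theorem eval_pAct_smul (n : ℕ) {g : GL (Fin 2) ℝ} (hg : 0 < g.val.det) {Q : ℂ[X]}
    (hQ : Q.natDegree ≤ n) (τ : UpperHalfPlane) :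
    (pAct n g.val Q).eval (τ : ℂ) =
      UpperHalfPlane.denom g τ ^ n * Q.eval ((g • τ : UpperHalfPlane) : ℂ) := by
  rw [UpperHalfPlane.coe_smul_of_det_pos hg, eval_pAct n hg.ne' hQ τ.im_pos.ne']
  rfl

theorem eq_of_eval_nonreal {P Q : ℂ[X]} (h : ∀ t : ℂ, 0 < t.im → P.eval t = Q.eval t) : P = Q := by
  refine eq_of_infinite_eval_eq P Q (Set.Infinite.mono (fun t ht => h t ht) ?_)
  refine Set.infinite_of_injective_forall_mem (f := fun m : ℕ => (m : ℂ) + Complex.I) ?_ ?_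
  · intro a b hab
    simpa using hab
  · intro m
    show 0 < ((m : ℂ) + Complex.I).im
    simp

theorem pAct_pAct (n : ℕ) {g h : Matrix (Fin 2) (Fin 2) ℝ} (hg : g.det ≠ 0) (hh : h.det ≠ 0)
    {Q : ℂ[X]} (hQ : Q.natDegree ≤ n) : pAct n h (pAct n g Q) = pAct n (g * h) Q := by
  refine eq_of_eval_nonreal fun t ht => ?_
  have hgh : (g * h).det ≠ 0 := by simp [Matrix.det_mul, hg, hh]
  have hd1 := denom_coe_ne_zero hh ht.ne'
  have hd2 := denom_coe_ne_zero hgh ht.ne'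
  rw [eval_pAct n hgh hQ ht.ne', eval_pAct n hh (natDegree_pAct_le n g Q) ht.ne']
  rw [pAct]
  simp only [Matrix.mul_apply, Fin.sum_univ_two,
    Complex.ofReal_add, Complex.ofReal_mul, ne_eq] at hd2 ⊢
  generalize hu : ((h 0 0 : ℂ) * t + h 0 1) / ((h 1 0 : ℂ) * t + h 1 1) = u
  have hud : u * ((h 1 0 : ℂ) * t + h 1 1) = (h 0 0 : ℂ) * t + h 0 1 := by
    rw [← hu, div_mul_cancel₀ _ hd1]
  have key : ((g 1 0 : ℂ) * u + g 1 1) * ((h 1 0 : ℂ) * t + h 1 1) =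
      ((g 1 0 : ℂ) * h 0 0 + (g 1 1 : ℂ) * h 1 0) * t + ((g 1 0 : ℂ) * h 0 1 + (g 1 1 : ℂ) * h 1 1) := by
    linear_combination (g 1 0 : ℂ) * hud
  have key' : ((g 0 0 : ℂ) * u + g 0 1) * ((h 1 0 : ℂ) * t + h 1 1) =
      ((g 0 0 : ℂ) * h 0 0 + (g 0 1 : ℂ) * h 1 0) * t + ((g 0 0 : ℂ) * h 0 1 + (g 0 1 : ℂ) * h 1 1) := by
    linear_combination (g 0 0 : ℂ) * hud
  have hd3 : (g 1 0 : ℂ) * u + g 1 1 ≠ 0 := fun h0 => hd2 (by rw [← key, h0, zero_mul])
  rw [eval_polyAct n _ hQ u (by simpa using hd3)]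
  simp only [Matrix.map_apply, Complex.ofRealHom_eq_coe]
  rw [← key, ← key', mul_pow, mul_div_mul_right _ _ hd1]
  ring

theorem pAct_scalar (n : ℕ) {D : ℝ} (hD : D ≠ 0) {Q : ℂ[X]} (hQ : Q.natDegree ≤ n) :
    pAct n (D • (1 : Matrix (Fin 2) (Fin 2) ℝ)) Q = (D : ℂ) ^ n • Q := by
  refine eq_of_eval_nonreal fun t ht => ?_
  have hdet : (D • (1 : Matrix (Fin 2) (Fin 2) ℝ)).det ≠ 0 := by simp [hD]
  rw [eval_pAct n hdet hQ ht.ne', eval_smul]
  have hD' : (D : ℂ) ≠ 0 := by exact_mod_cast hD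
  simp [hD']

theorem pAct_one (n : ℕ) {Q : ℂ[X]} (hQ : Q.natDegree ≤ n) :
    pAct n 1 Q = Q := by
  simpa using pAct_scalar n one_ne_zero hQ

/-- Integral polynomials of degree at most `n`. -/
def intPolys (n : ℕ) : Submodule ℤ ℂ[X] :=
  Submodule.span ℤ ((fun j : ℕ => (X : ℂ[X]) ^ j) '' Set.Iic n)

theorem mem_intPolys_iff {n : ℕ} {Q : ℂ[X]} :
    Q ∈ intPolys n ↔ ∃ q : ℤ[X], q.natDegree ≤ n ∧ q.map (Int.castRingHom ℂ) = Q := by
  constructor
  · intro h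
    induction h using Submodule.span_induction with
    | mem x hx =>
      obtain ⟨j, hj, rfl⟩ := hx
      exact ⟨X ^ j, (natDegree_X_pow_le j).trans hj, by simp⟩
    | zero => exact ⟨0, by simp, by simp⟩
    | add x y _ _ hx hy =>
      obtain ⟨a, ha, rfl⟩ := hx; obtain ⟨b, hb, rfl⟩ := hy
      exact ⟨a + b, natDegree_add_le_of_degree_le ha hb, by simp⟩
    | smul c x _ hx =>
      obtain ⟨a, ha, rfl⟩ := hx
      exact ⟨c • a, (natDegree_smul_le _ _).trans ha, by simp [zsmul_eq_mul]⟩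
  · rintro ⟨q, hq, rfl⟩
    rw [q.as_sum_range' (n + 1) (Nat.lt_succ_of_le hq), Polynomial.map_sum]
    refine sum_mem fun j hj => ?_
    have hmem : (X : ℂ[X]) ^ j ∈ intPolys n :=
      Submodule.subset_span ⟨j, Nat.lt_succ_iff.mp (mem_range.mp hj), rfl⟩
    convert (intPolys n).smul_mem (q.coeff j) hmem using 1
    simp [zsmul_eq_mul, ← C_mul_X_pow_eq_monomial]

theorem natDegree_le_of_mem_intPolys {n : ℕ} {Q : ℂ[X]} (h : Q ∈ intPolys n) : Q.natDegree ≤ n := by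
  obtain ⟨q, hq, rfl⟩ := mem_intPolys_iff.mp h
  exact natDegree_map_le.trans hq

theorem pAct_mem_intPolys {n : ℕ} (A : Matrix (Fin 2) (Fin 2) ℤ) {Q : ℂ[X]} (h : Q ∈ intPolys n) :
    pAct n (A.map (Int.cast : ℤ → ℝ)) Q ∈ intPolys n := by
  obtain ⟨q, hq, rfl⟩ := mem_intPolys_iff.mp h
  refine mem_intPolys_iff.mpr ⟨polyAct n A q, natDegree_polyAct_le _ _ _, ?_⟩
  rw [map_polyAct, pAct, Matrix.map_map]
  congr 2

end Fermat.Agent.HeckeFinite
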