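import Fermat.Agent.HeckeFinite.Primitive
import Fermat.Agent.HeckeFinite.PolyAction
import Fermat.Prelude.Thm_CongruenceSubgroup_one_mem_strictPeriods_Gamma0
import Mathlib.Algebra.Polynomial.Derivative
import Mathlib.NumberTheory.ModularForms.CongruenceSubgroups
import Mathlib.NumberTheory.Modular

/-!
# The primitives of `Q(z) f(z)` normalised at `i∞`, and the period cocycle
-/

set_option autoImplicit false

noncomputable section

open UpperHalfPlane Filter Polynomial Finset CongruenceSubgroup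
open scoped Topology Manifold MatrixGroups ModularForm

namespace Fermat.Agent.HeckeFinite

section CuspLikeLinear

variable {h : ℝ} {φ ψ : ℍ → ℂ}

theorem CuspLike.add (hφ : CuspLike h φ) (hψ : CuspLike h ψ) : CuspLike h (φ + ψ) where
  pos := hφ.pos
  periodic := hφ.periodic.add hψ.periodic
  holo := hφ.holo.add hψ.holo
  zero := by simpa [IsZeroAtImInfty] using! hφ.zero.add hψ.zero

theorem CuspLike.const_smul (c : ℂ) (hφ : CuspLike h φ) : CuspLike h (c • φ) where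
  pos := hφ.pos
  periodic := fun z => by simpa using congrArg (c * ·) (hφ.periodic z)
  holo := hφ.holo.const_smul c
  zero := by
    show Tendsto (c • φ) atImInfty (𝓝 0)
    simpa using! Filter.Tendsto.const_mul c hφ.zero

theorem prim_add (hφ : CuspLike h φ) (hψ : CuspLike h ψ) : prim (φ + ψ) = prim φ + prim ψ :=
  (hφ.add hψ).prim_spec.1.unique (hφ.prim_spec.1.add hψ.prim_spec.1)
    (hφ.add hψ).prim_spec.2.zero.zeroOnLines
    (hφ.prim_spec.2.add hψ.prim_spec.2).zero.zeroOnLines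

theorem prim_smul (c : ℂ) (hφ : CuspLike h φ) : prim (c • φ) = c • prim φ :=
  (hφ.const_smul c).prim_spec.1.unique (hφ.prim_spec.1.const_smul c)
    (hφ.const_smul c).prim_spec.2.zero.zeroOnLines
    (hφ.prim_spec.2.const_smul c).zero.zeroOnLines

theorem iterate_prim_add (hφ : CuspLike h φ) (hψ : CuspLike h ψ) :
    ∀ m, prim^[m] (φ + ψ) = prim^[m] φ + prim^[m] ψ
  | 0 => rfl
  | m + 1 => by
    simp only [Function.iterate_succ_apply']
    rw [iterate_prim_add hφ hψ m, prim_add (hφ.iterate_prim m) (hψ.iterate_prim m)]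

theorem iterate_prim_smul (c : ℂ) (hφ : CuspLike h φ) :
    ∀ m, prim^[m] (c • φ) = c • prim^[m] φ
  | 0 => rfl
  | m + 1 => by
    simp only [Function.iterate_succ_apply']
    rw [iterate_prim_smul c hφ m, prim_smul c (hφ.iterate_prim m)]

end CuspLikeLinear

/-- The primitive of `Q φ` normalised at `i∞`, by repeated integration by parts. -/
def polyPrim (n : ℕ) (φ : ℍ → ℂ) : ℂ[X] →ₗ[ℂ] (ℍ → ℂ) where
  toFun Q τ := ∑ m ∈ range (n + 1),
    (-1 : ℂ) ^ m * (derivative^[m] Q).eval (τ : ℂ) * prim^[m + 1] φ τ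
  map_add' P Q := by
    funext τ
    simp only [Pi.add_apply, ← Finset.sum_add_distrib]
    refine sum_congr rfl fun m _ => ?_
    rw [iterate_map_add, eval_add]
    ring
  map_smul' c Q := by
    funext τ
    simp only [Pi.smul_apply, smul_eq_mul, RingHom.id_apply, mul_sum]
    refine sum_congr rfl fun m _ => ?_
    rw [iterate_derivative_smul, eval_smul, smul_eq_mul]
    ring

theorem polyPrim_apply (n : ℕ) (φ : ℍ → ℂ) (Q : ℂ[X]) (τ : ℍ) :
    polyPrim n φ Q τ = ∑ m ∈ range (n + 1),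
      (-1 : ℂ) ^ m * (derivative^[m] Q).eval (τ : ℂ) * prim^[m + 1] φ τ := rfl

namespace CuspLike

variable {h : ℝ} {φ ψ : ℍ → ℂ} {n : ℕ}

theorem polyPrim_isPrim (hφ : CuspLike h φ) {Q : ℂ[X]} (hQ : Q.natDegree ≤ n) :
    IsPrim (polyPrim n φ Q) (fun τ => Q.eval (τ : ℂ) * φ τ) := by
  intro τ
  let u : ℕ → ℂ := fun m => (-1 : ℂ) ^ m * (derivative^[m] Q).eval (τ : ℂ) * prim^[m] φ τ
  have hterm : ∀ m : ℕ, HasDerivAt
      (fun z : ℂ => (-1 : ℂ) ^ m * (derivative^[m] Q).eval z * prim^[m + 1] φ (ofComplex z))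
      (u m - u (m + 1)) τ := by
    intro m
    have h1 : HasDerivAt (fun z : ℂ => (-1 : ℂ) ^ m * (derivative^[m] Q).eval z)
        ((-1 : ℂ) ^ m * (derivative^[m + 1] Q).eval (τ : ℂ)) τ := by
      rw [Function.iterate_succ_apply']
      exact ((derivative^[m] Q).hasDerivAt (τ : ℂ)).const_mul _
    have h2 := h1.mul (hφ.isPrim_iterate m τ)
    simp only [Function.comp_apply, ofComplex_apply] at h2
    have e : u m - u (m + 1) = (-1 : ℂ) ^ m * (derivative^[m + 1] Q).eval (τ : ℂ) *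
        prim^[m + 1] φ τ + (-1 : ℂ) ^ m * (derivative^[m] Q).eval (τ : ℂ) * prim^[m] φ τ := by
      simp only [u, pow_succ]; ring
    rw [e]
    exact h2
  have hsum := HasDerivAt.fun_sum (u := range (n + 1)) fun m _ => hterm m
  rw [Finset.sum_range_sub'] at hsum
  have hzero : u (n + 1) = 0 := by
    simp only [u, iterate_derivative_eq_zero (Nat.lt_succ_of_le hQ), eval_zero, mul_zero, zero_mul]
  rw [hzero, sub_zero] at hsum
  simp only [u, pow_zero, one_mul, Function.iterate_zero_apply] at hsum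
  refine hsum.congr_of_eventuallyEq ?_
  filter_upwards [isOpen_upperHalfPlaneSet.mem_nhds τ.im_pos] with z hz
  simp [polyPrim_apply, ofComplex_apply_of_im_pos hz]

theorem polyPrim_zeroOnLines (hφ : CuspLike h φ) (Q : ℂ[X]) : ZeroOnLines (polyPrim n φ Q) := by
  intro x
  have := tendsto_finsetSum (range (n + 1)) fun m _ =>
    ((hφ.iterate_prim (m + 1)).zeroOnLines_polynomial_mul (derivative^[m] Q) x).const_mul
      ((-1 : ℂ) ^ m)
  simp only [mul_zero, Finset.sum_const_zero] at this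
  refine this.congr fun y => ?_
  simp only [polyPrim_apply, mul_assoc]

theorem polyPrim_eq (hφ : CuspLike h φ) {Q : ℂ[X]} (hQ : Q.natDegree ≤ n) {F : ℍ → ℂ}
    (hF : IsPrim F (fun τ => Q.eval (τ : ℂ) * φ τ)) (hF0 : ZeroOnLines F) :
    polyPrim n φ Q = F :=
  (hφ.polyPrim_isPrim hQ).unique hF (hφ.polyPrim_zeroOnLines Q) hF0

theorem polyPrim_add (hφ : CuspLike h φ) (hψ : CuspLike h ψ) :
    polyPrim n (φ + ψ) = polyPrim n φ + polyPrim n ψ := by
  refine LinearMap.ext fun Q => funext fun τ => ?_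
  simp only [LinearMap.add_apply, Pi.add_apply, polyPrim_apply, iterate_prim_add hφ hψ,
    ← Finset.sum_add_distrib]
  exact sum_congr rfl fun m _ => by ring

theorem polyPrim_const_smul (c : ℂ) (hφ : CuspLike h φ) :
    polyPrim n (c • φ) = c • polyPrim n φ := by
  refine LinearMap.ext fun Q => funext fun τ => ?_
  simp only [LinearMap.smul_apply, Pi.smul_apply, polyPrim_apply, iterate_prim_smul c hφ,
    smul_eq_mul, mul_sum]
  exact sum_congr rfl fun m _ => by ring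

end CuspLike

section CuspFormSection

variable {N : ℕ} [NeZero N] {k : ℤ} {n : ℕ}

theorem cuspLike_cuspForm (f : CuspForm (Gamma0 N) k) : CuspLike (1 : ℝ) f := by
  have hp : Function.Periodic ((⇑f) ∘ ofComplex) ((1 : ℝ) : ℂ) :=
    SlashInvariantFormClass.periodic_comp_ofComplex
      (Γ := (Gamma0 N : Subgroup (GL (Fin 2) ℝ))) (k := k) f
      (one_mem_strictPeriods_Gamma0 N)
  have hm : MDiff (⇑f) := f.holo'
  have hz : IsZeroAtImInfty (⇑f) :=
    CuspFormClass.zero_at_infty (Γ := (Gamma0 N : Subgroup (GL (Fin 2) ℝ))) (k := k) f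
  exact CuspLike.mk one_pos hp hm hz

omit [NeZero N] in
theorem slash_eq_self_of_mem (f : CuspForm (Gamma0 N) k) {γ : SL(2, ℤ)} (hγ : γ ∈ Gamma0 N) :
    (⇑f) ∣[k] γ = f :=
  SlashInvariantFormClass.slash_action_eq f _ (Subgroup.mem_map_of_mem _ hγ)

omit [NeZero N] in
theorem conj_T_zpow_mem_Gamma0 (δ : SL(2, ℤ)) :
    δ * ModularGroup.T ^ (N : ℤ) * δ⁻¹ ∈ Gamma0 N := by
  have hT : ModularGroup.T ^ (N : ℤ) ∈ Gamma N := by
    simpa using ModularGroup_T_pow_mem_Gamma (N : ℤ) (N : ℤ) dvd_rfl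
  have h := (Gamma_normal N).conj_mem _ hT δ
  have h' := Gamma_mem.mp h
  exact Gamma0_mem.mpr h'.2.2.1

theorem periodic_of_slash_T_zpow {φ : ℍ → ℂ} {m : ℤ} (hm : φ ∣[k] (ModularGroup.T ^ m) = φ) :
    Function.Periodic (φ ∘ ofComplex) (((m : ℝ) : ℂ)) := by
  intro z
  simp only [Function.comp_apply]
  by_cases! hz : 0 < z.im
  · have hz' : 0 < (z + ((m : ℝ) : ℂ)).im := by simpa using hz
    rw [ofComplex_apply_of_im_pos hz, ofComplex_apply_of_im_pos hz']
    have h := congrFun hm ⟨z, hz⟩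
    rw [ModularForm.SL_slash_apply] at h
    have hd : denom ((ModularGroup.T ^ m : SL(2, ℤ)) : GL (Fin 2) ℝ) (⟨z, hz⟩ : ℍ) = 1 := by
      simp [denom, ModularGroup.coe_T_zpow, -map_zpow]
    rw [hd, one_zpow, mul_one] at h
    convert h using 2
    ext
    rw [ModularGroup.coe_T_zpow_smul_eq]
    simp
  · rw [ofComplex_apply_eq_of_im_nonpos (by simpa using hz) hz]

theorem cuspLike_slash (f : CuspForm (Gamma0 N) k) (δ : SL(2, ℤ)) :
    CuspLike (N : ℝ) ((⇑f) ∣[k] δ) where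
  pos := by exact_mod_cast Nat.pos_of_ne_zero (NeZero.ne N)
  periodic := by
    have h : ((⇑f) ∣[k] δ) ∣[k] (ModularGroup.T ^ (N : ℤ)) = (⇑f) ∣[k] δ := by
      have e : δ * ModularGroup.T ^ (N : ℤ) = (δ * ModularGroup.T ^ (N : ℤ) * δ⁻¹) * δ := by
        group
      rw [← SlashAction.slash_mul, e, SlashAction.slash_mul,
        slash_eq_self_of_mem f (conj_T_zpow_mem_Gamma0 δ)]
    simpa using periodic_of_slash_T_zpow h
  holo := by
    rw [ModularForm.SL_slash]
    exact (CuspFormClass.holo f).slash _ _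
  zero := CuspFormClass.zero_at_infty_slash f δ

/-- Chain rule for `polyPrim` composed with an element of `GL(2,ℝ)⁺`. -/
theorem isPrim_polyPrim_smul {h : ℝ} {φ : ℍ → ℂ} (hφ : CuspLike h φ) (hk : k = n + 2)
    {g : GL (Fin 2) ℝ} (hg : 0 < g.val.det) {Q : ℂ[X]} (hQ : Q.natDegree ≤ n) :
    IsPrim (fun τ => polyPrim n φ Q (g • τ))
      (fun τ => ((g.val.det : ℂ) ^ n)⁻¹ * ((pAct n g.val Q).eval (τ : ℂ) * (φ ∣[k] g) τ)) := by
  intro τ
  have h1 : HasDerivAt (fun z : ℂ => ((g • ofComplex z : ℍ) : ℂ))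
      ((g.val.det : ℂ) / denom g τ ^ 2) τ := (hasStrictDerivAt_smul hg τ).hasDerivAt
  have h2 : HasDerivAt (polyPrim n φ Q ∘ ofComplex)
      (Q.eval (((g • τ : ℍ)) : ℂ) * φ (g • τ)) (((g • ofComplex (τ : ℂ) : ℍ)) : ℂ) := by
    rw [ofComplex_apply]
    exact hφ.polyPrim_isPrim hQ (g • τ)
  have h3 := h2.comp (τ : ℂ) h1
  have hfun : (fun τ : ℍ => polyPrim n φ Q (g • τ)) ∘ ofComplex =
      (polyPrim n φ Q ∘ ofComplex) ∘ fun z : ℂ => ((g • ofComplex z : ℍ) : ℂ) := by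
    funext z
    simp [ofComplex_apply]
  rw [hfun]
  refine h3.congr_deriv (Eq.symm ?_)
  beta_reduce
  have hdet : (g.det.val : ℝ) = g.val.det := Matrix.GeneralLinearGroup.val_det_apply g
  have hσ : UpperHalfPlane.σ g = .refl ℝ ℂ := by
    rw [UpperHalfPlane.σ, if_pos (by rw [hdet]; exact hg)]
  have hd : denom g τ ≠ 0 := denom_ne_zero g τ
  have hD : (g.val.det : ℂ) ≠ 0 := Complex.ofReal_ne_zero.mpr hg.ne'
  rw [eval_pAct_smul n hg hQ, ModularForm.slash_apply, hσ, hdet, abs_of_pos hg]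
  simp only [ContinuousAlgEquiv.refl_apply]
  rw [hk, show (n : ℤ) + 2 - 1 = ((n + 1 : ℕ) : ℤ) by push_cast; ring,
    show -((n : ℤ) + 2) = -(((n + 2 : ℕ)) : ℤ) by push_cast; ring, zpow_natCast, zpow_neg,
    zpow_natCast]
  field_simp
  ring

/-- The constant by which the primitives attached to `f` and `f ∣ δ` differ. -/
def periodConst (n : ℕ) (f : CuspForm (Gamma0 N) k) (δ : SL(2, ℤ)) (Q : ℂ[X]) : ℂ :=
  polyPrim n f Q (δ • UpperHalfPlane.I) -
    polyPrim n ((⇑f) ∣[k] δ) (pAct n (δ : GL (Fin 2) ℝ).val Q) UpperHalfPlane.I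

theorem det_SL_val (δ : SL(2, ℤ)) : ((δ : GL (Fin 2) ℝ)).val.det = 1 :=
  ((Matrix.SpecialLinearGroup.map (Int.castRingHom ℝ)) δ).det_coe

theorem SL_smul_coe (δ : SL(2, ℤ)) (w : ℍ) : (δ : GL (Fin 2) ℝ) • w = δ • w := rfl

theorem polyPrim_smul_SL (hk : k = n + 2) (f : CuspForm (Gamma0 N) k) (δ : SL(2, ℤ)) {Q : ℂ[X]}
    (hQ : Q.natDegree ≤ n) (τ : ℍ) :
    polyPrim n f Q (δ • τ) = periodConst n f δ Q +
      polyPrim n ((⇑f) ∣[k] δ) (pAct n (δ : GL (Fin 2) ℝ).val Q) τ := by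
  have h1 := isPrim_polyPrim_smul (cuspLike_cuspForm f) hk (g := (δ : GL (Fin 2) ℝ))
    (by rw [det_SL_val]; exact one_pos) hQ
  have h2 := (cuspLike_slash f δ).polyPrim_isPrim
    (natDegree_pAct_le n (δ : GL (Fin 2) ℝ).val Q) (n := n)
  simp only [det_SL_val, Complex.ofReal_one, one_pow, inv_one, one_mul] at h1
  have h3 := h1.sub_eq_sub h2 τ UpperHalfPlane.I
  rw [periodConst]
  simp only [SL_smul_coe] at h3
  linear_combination h3

/-- The period `f ↦ ∫_{i∞}^{γ i∞} f(z) Q(z) dz`. -/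
def period (N : ℕ) [NeZero N] (k : ℤ) (n : ℕ) (γ : SL(2, ℤ)) (Q : ℂ[X]) :
    CuspForm (Gamma0 N) k →ₗ[ℂ] ℂ where
  toFun f := polyPrim n f Q (γ • UpperHalfPlane.I) -
    polyPrim n f (pAct n (γ : GL (Fin 2) ℝ).val Q) UpperHalfPlane.I
  map_add' f g := by
    rw [show ⇑(f + g) = ⇑f + ⇑g from rfl,
      (cuspLike_cuspForm f).polyPrim_add (cuspLike_cuspForm g)]
    simp only [LinearMap.add_apply, Pi.add_apply]
    ring
  map_smul' c f := by
    rw [show ⇑(c • f) = c • ⇑f from rfl, (cuspLike_cuspForm f).polyPrim_const_smul c]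
    simp only [LinearMap.smul_apply, Pi.smul_apply, smul_eq_mul, RingHom.id_apply]
    ring

theorem period_apply (γ : SL(2, ℤ)) (Q : ℂ[X]) (f : CuspForm (Gamma0 N) k) :
    period N k n γ Q f = polyPrim n f Q (γ • UpperHalfPlane.I) -
      polyPrim n f (pAct n (γ : GL (Fin 2) ℝ).val Q) UpperHalfPlane.I := rfl

theorem periodConst_eq_period (f : CuspForm (Gamma0 N) k) {γ : SL(2, ℤ)} (hγ : γ ∈ Gamma0 N)
    (Q : ℂ[X]) : periodConst n f γ Q = period N k n γ Q f := by
  rw [periodConst, slash_eq_self_of_mem f hγ]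
  rfl

theorem polyPrim_smul_Gamma0 (hk : k = n + 2) (f : CuspForm (Gamma0 N) k) {γ : SL(2, ℤ)}
    (hγ : γ ∈ Gamma0 N) {Q : ℂ[X]} (hQ : Q.natDegree ≤ n) (τ : ℍ) :
    polyPrim n f Q (γ • τ) =
      period N k n γ Q f + polyPrim n f (pAct n (γ : GL (Fin 2) ℝ).val Q) τ := by
  rw [polyPrim_smul_SL hk f γ hQ τ, periodConst_eq_period f hγ, slash_eq_self_of_mem f hγ]

theorem period_add (γ : SL(2, ℤ)) (P Q : ℂ[X]) :
    period N k n γ (P + Q) = period N k n γ P + period N k n γ Q := by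
  ext f
  simp only [LinearMap.add_apply, period_apply, map_add, Pi.add_apply]
  ring

theorem period_smul (γ : SL(2, ℤ)) (c : ℂ) (Q : ℂ[X]) :
    period N k n γ (c • Q) = c • period N k n γ Q := by
  ext f
  simp only [LinearMap.smul_apply, period_apply, map_smul, Pi.smul_apply, smul_eq_mul]
  ring

theorem period_one {Q : ℂ[X]} (hQ : Q.natDegree ≤ n) : period N k n 1 Q = 0 := by
  ext f
  rw [period_apply, one_smul]
  simp [pAct_one n hQ]

theorem period_mul (hk : k = n + 2) {γ δ : SL(2, ℤ)} (hγ : γ ∈ Gamma0 N) (hδ : δ ∈ Gamma0 N)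
    {Q : ℂ[X]} (hQ : Q.natDegree ≤ n) :
    period N k n (γ * δ) Q =
      period N k n γ Q + period N k n δ (pAct n (γ : GL (Fin 2) ℝ).val Q) := by
  ext f
  have h1 := polyPrim_smul_Gamma0 hk f hγ hQ (δ • UpperHalfPlane.I)
  have h2 := polyPrim_smul_Gamma0 hk f hδ
    (natDegree_pAct_le n (γ : GL (Fin 2) ℝ).val Q) UpperHalfPlane.I
  have h3 := polyPrim_smul_Gamma0 hk f (mul_mem hγ hδ) hQ UpperHalfPlane.I
  rw [mul_smul] at h3
  rw [pAct_pAct n (by rw [det_SL_val]; exact one_ne_zero) (by rw [det_SL_val]; exact one_ne_zero)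
    hQ] at h2
  have e : ((γ * δ : SL(2, ℤ)) : GL (Fin 2) ℝ).val =
      (γ : GL (Fin 2) ℝ).val * (δ : GL (Fin 2) ℝ).val := by
    rw [map_mul, map_mul]; rfl
  rw [e] at h3
  rw [LinearMap.add_apply]
  linear_combination -h3 + h1 + h2

end CuspFormSection

end Fermat.Agent.HeckeFinite
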