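import Mathlib.Analysis.Complex.HasPrimitives
import Mathlib.Analysis.Complex.RemovableSingularity
import Mathlib.Analysis.SpecialFunctions.Exp
import Mathlib.NumberTheory.ModularForms.QExpansion

/-!
# Primitives vanishing at `i∞` of periodic functions vanishing at `i∞`

A periodic holomorphic function on `ℍ` which tends to zero at `i∞` has a periodic primitive tending
to zero at `i∞`; it is found on the unit disc through the cusp function, so no integral is needed.
-/

set_option autoImplicit false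

noncomputable section

open UpperHalfPlane Filter Asymptotics Function Complex
open scoped Topology Manifold Real

namespace Fermat.Agent.HeckeFinite

/-- `F` is a complex primitive of `φ` on the upper half plane. -/
def IsPrim (F φ : ℍ → ℂ) : Prop := ∀ τ : ℍ, HasDerivAt (F ∘ ofComplex) (φ τ) τ

/-- Holomorphic, periodic of period `h`, and zero at `i∞`. -/
structure CuspLike (h : ℝ) (φ : ℍ → ℂ) : Prop where
  pos : 0 < h
  periodic : Periodic (φ ∘ ofComplex) h
  holo : MDiff φ
  zero : IsZeroAtImInfty φ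

/-- The point `x + i y` as a point of `ℍ` (junk for `y ≤ 0`). -/
def linePt (x y : ℝ) : ℍ := ofComplex ((x : ℂ) + (y : ℂ) * Complex.I)

/-- `F` tends to zero going up along every vertical line. -/
def ZeroOnLines (F : ℍ → ℂ) : Prop := ∀ x : ℝ, Tendsto (fun y => F (linePt x y)) atTop (𝓝 0)

theorem coe_linePt {x y : ℝ} (hy : 0 < y) :
    ((linePt x y : ℍ) : ℂ) = (x : ℂ) + (y : ℂ) * Complex.I := by
  rw [linePt, ofComplex_apply_of_im_pos (by simpa using hy)]

theorem im_linePt {x y : ℝ} (hy : 0 < y) : (linePt x y).im = y := by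
  rw [← UpperHalfPlane.coe_im, coe_linePt hy]
  simp

theorem tendsto_linePt (x : ℝ) : Tendsto (linePt x) atTop atImInfty := by
  rw [atImInfty, tendsto_comap_iff]
  refine tendsto_id.congr' ?_
  filter_upwards [eventually_gt_atTop (0 : ℝ)] with y hy
  simp [im_linePt hy]

theorem _root_.UpperHalfPlane.IsZeroAtImInfty.zeroOnLines {F : ℍ → ℂ} (hF : IsZeroAtImInfty F) :
    ZeroOnLines F := fun x => hF.comp (tendsto_linePt x)

namespace IsPrim

theorem mdiff {F φ : ℍ → ℂ} (hF : IsPrim F φ) : MDiff F := fun τ =>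
  mdifferentiableAt_iff.mpr (hF τ).differentiableAt

theorem add {F G φ ψ : ℍ → ℂ} (hF : IsPrim F φ) (hG : IsPrim G ψ) : IsPrim (F + G) (φ + ψ) :=
  fun τ => (hF τ).add (hG τ)

theorem sub {F G φ ψ : ℍ → ℂ} (hF : IsPrim F φ) (hG : IsPrim G ψ) : IsPrim (F - G) (φ - ψ) :=
  fun τ => (hF τ).sub (hG τ)

theorem const_smul (c : ℂ) {F φ : ℍ → ℂ} (hF : IsPrim F φ) : IsPrim (c • F) (c • φ) :=
  fun τ => (hF τ).const_smul c

theorem sum {ι : Type*} (s : Finset ι) {F φ : ι → ℍ → ℂ} (h : ∀ i ∈ s, IsPrim (F i) (φ i)) :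
    IsPrim (∑ i ∈ s, F i) (∑ i ∈ s, φ i) := by
  intro τ
  have := HasDerivAt.sum (u := s) (A := fun i => F i ∘ ofComplex) (A' := fun i => φ i τ)
    (x := (τ : ℂ)) (fun i hi => h i hi τ)
  rw [Finset.sum_apply]
  have e : (∑ i ∈ s, F i) ∘ ofComplex = ∑ i ∈ s, F i ∘ ofComplex := by
    funext z
    simp [Finset.sum_apply]
  rw [e]
  exact this

/-- Two primitives of the same function differ by a constant. -/
theorem sub_eq_sub {F G φ : ℍ → ℂ} (hF : IsPrim F φ) (hG : IsPrim G φ) (z w : ℍ) :
    F z - G z = F w - G w := by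
  have hd : ∀ τ : ℍ, HasDerivAt ((F - G) ∘ ofComplex) 0 τ := fun τ => by
    simpa using hF.sub hG τ
  have := isOpen_upperHalfPlaneSet.is_const_of_deriv_eq_zero
    (Complex.isConnected_of_upperHalfPlane subset_rfl (by grind)).isPreconnected
    (f := (F - G) ∘ ofComplex)
    (fun x hx => (hd ⟨x, hx⟩).differentiableAt.differentiableWithinAt)
    (fun x hx => (hd ⟨x, hx⟩).deriv) z.im_pos w.im_pos
  simpa [ofComplex_apply] using this

/-- A primitive is determined by its limit along the imaginary axis. -/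
theorem unique {F G φ : ℍ → ℂ} (hF : IsPrim F φ) (hG : IsPrim G φ)
    (hF0 : ZeroOnLines F) (hG0 : ZeroOnLines G) : F = G := by
  funext z
  have h1 : Tendsto (fun y => F (linePt 0 y) - G (linePt 0 y)) atTop (𝓝 0) := by
    simpa using (hF0 0).sub (hG0 0)
  have h2 : Tendsto (fun _ : ℝ => F z - G z) atTop (𝓝 0) :=
    h1.congr fun y => (hF.sub_eq_sub hG _ _)
  exact sub_eq_zero.mp (tendsto_const_nhds_iff.mp h2)

end IsPrim

namespace CuspLike

variable {h : ℝ} {φ : ℍ → ℂ}

theorem bdd (hφ : CuspLike h φ) : IsBoundedAtImInfty φ := hφ.zero.boundedAtFilter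

theorem exp_decay (hφ : CuspLike h φ) :
    φ =O[atImInfty] fun τ => Real.exp (-2 * π * τ.im / h) :=
  hφ.zero.exp_decay_atImInfty hφ.pos hφ.periodic hφ.holo hφ.bdd

/-- The key step: a periodic primitive, zero at `i∞`. -/
theorem exists_prim (hφ : CuspLike h φ) : ∃ F, IsPrim F φ ∧ CuspLike h F := by
  set g : ℂ → ℂ := UpperHalfPlane.cuspFunction h φ with hg
  have hg0 : g 0 = 0 := hφ.zero.cuspFunction_apply_zero hφ.pos
  have hgd : DifferentiableOn ℂ (dslope g 0) (Metric.ball 0 1) :=
    (Complex.differentiableOn_dslope (Metric.ball_mem_nhds 0 one_pos)).mpr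
      (differentiableOn_cuspFunction_ball hφ.pos hφ.periodic hφ.holo hφ.bdd)
  obtain ⟨H, hH0, hH⟩ := hgd.isExactOn_ball.with_val_at 0 0
  set C : ℂ := (h : ℂ) / (2 * π * Complex.I) with hC
  set F : ℍ → ℂ := fun τ => C * H (Periodic.qParam h τ) with hF
  have hhC : (h : ℂ) ≠ 0 := ofReal_ne_zero.mpr hφ.pos.ne'
  have hprim : IsPrim F φ := by
    intro τ
    have hq : ‖Periodic.qParam h τ‖ < 1 := Periodic.norm_qParam_lt_one hφ.pos τ.im_pos
    have hqd : HasDerivAt (Periodic.qParam h)
        (Periodic.qParam h τ * (2 * π * Complex.I / h)) τ := by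
      simpa only [id_eq, mul_one] using!
        (((hasDerivAt_id (τ : ℂ)).const_mul _).div_const _).cexp
    have hcomp : HasDerivAt (fun z => C * H (Periodic.qParam h z))
        (C * (dslope g 0 (Periodic.qParam h τ) *
          (Periodic.qParam h τ * (2 * π * Complex.I / h)))) τ :=
      ((hH _ (mem_ball_zero_iff.mpr hq)).comp (τ : ℂ) hqd).const_mul C
    have hval : C * (dslope g 0 (Periodic.qParam h τ) *
        (Periodic.qParam h τ * (2 * π * Complex.I / h))) = φ τ := by
      have h1 := sub_smul_dslope g 0 (Periodic.qParam h τ)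
      rw [hg0, sub_zero, sub_zero, smul_eq_mul] at h1
      rw [← UpperHalfPlane.eq_cuspFunction τ hφ.pos.ne' hφ.periodic, ← hg, ← h1, hC]
      field_simp
    rw [hval] at hcomp
    refine hcomp.congr_of_eventuallyEq ?_
    filter_upwards [isOpen_upperHalfPlaneSet.mem_nhds τ.im_pos] with z hz
    simp [hF, ofComplex_apply_of_im_pos hz]
  refine ⟨F, hprim, hφ.pos, ?_, hprim.mdiff, ?_⟩
  · intro z
    simp only [comp_apply]
    by_cases! hz : 0 < z.im
    · have hz' : 0 < (z + h).im := by simpa using hz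
      simp only [hF, ofComplex_apply_of_im_pos hz, ofComplex_apply_of_im_pos hz']
      congr 2
      rw [Periodic.qParam, Periodic.qParam, mul_add, add_div, Complex.exp_add,
        mul_div_assoc _ (h : ℂ), div_self hhC, mul_one, Complex.exp_two_pi_mul_I, mul_one]
    · rw [ofComplex_apply_eq_of_im_nonpos (by simpa using hz) hz]
  · show Tendsto F atImInfty (𝓝 0)
    have hcont : ContinuousAt H 0 := (hH 0 (Metric.mem_ball_self one_pos)).continuousAt
    have := (hcont.tendsto.comp (qParam_tendsto_atImInfty hφ.pos)).const_mul C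
    rw [hH0, mul_zero] at this
    exact this

end CuspLike

open Classical in
/-- The primitive tending to zero at `i∞` (when there is one). -/
def prim (φ : ℍ → ℂ) : ℍ → ℂ :=
  if hyp : ∃ F, IsPrim F φ ∧ IsZeroAtImInfty F then hyp.choose else 0

namespace CuspLike

variable {h : ℝ} {φ : ℍ → ℂ}

theorem prim_spec (hφ : CuspLike h φ) : IsPrim (prim φ) φ ∧ CuspLike h (prim φ) := by
  obtain ⟨F, hF, hF'⟩ := hφ.exists_prim
  have hyp : ∃ G, IsPrim G φ ∧ IsZeroAtImInfty G := ⟨F, hF, hF'.zero⟩
  have heq : prim φ = F := by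
    rw [prim, dif_pos hyp]
    exact hyp.choose_spec.1.unique hF hyp.choose_spec.2.zeroOnLines hF'.zero.zeroOnLines
  exact heq ▸ ⟨hF, hF'⟩

/-- Iterated primitives. -/
theorem iterate_prim (hφ : CuspLike h φ) : ∀ m : ℕ, CuspLike h (prim^[m] φ)
  | 0 => hφ
  | m + 1 => by
    rw [Function.iterate_succ_apply']
    exact (iterate_prim hφ m).prim_spec.2

theorem isPrim_iterate (hφ : CuspLike h φ) (m : ℕ) :
    IsPrim (prim^[m + 1] φ) (prim^[m] φ) := by
  rw [Function.iterate_succ_apply']
  exact (hφ.iterate_prim m).prim_spec.1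

/-- Polynomial times periodic exponentially decaying tends to zero on vertical lines. -/
theorem zeroOnLines_pow_mul (hφ : CuspLike h φ) (j : ℕ) :
    ZeroOnLines fun τ : ℍ => (τ : ℂ) ^ j * φ τ := by
  intro x
  obtain ⟨C, hC⟩ := (hφ.exp_decay.comp_tendsto (tendsto_linePt x)).bound
  have hc : 0 < 2 * π / h := by have := hφ.pos; positivity
  have hlim : Tendsto (fun y : ℝ => C * ((|x| + y) ^ j * Real.exp (-(2 * π / h) * y)))
      atTop (𝓝 0) := by
    have h2 : Tendsto (fun y : ℝ => (|x| + y) ^ j * Real.exp (-(2 * π / h) * y)) atTop (𝓝 0) := by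
      have h3 : (fun y : ℝ => (|x| + y) ^ j) =O[atTop] fun y : ℝ => y ^ j := by
        refine IsBigO.pow ?_ j
        refine IsBigO.add ?_ (isBigO_refl _ _)
        exact (isLittleO_const_id_atTop |x|).isBigO
      have h5 : (fun y : ℝ => Real.exp (2 * π / h * y) * Real.exp (-(2 * π / h) * y)) =
          fun _ => (1 : ℝ) := by
        funext y
        rw [← Real.exp_add]; ring_nf; exact Real.exp_zero
      have h4 := (h3.trans_isLittleO (isLittleO_pow_exp_pos_mul_atTop j hc)).mul_isBigO
        (isBigO_refl (fun y : ℝ => Real.exp (-(2 * π / h) * y)) atTop)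
      rw [h5] at h4
      exact (isLittleO_one_iff ℝ).mp h4
    simpa using h2.const_mul C
  refine squeeze_zero_norm' ?_ hlim
  filter_upwards [hC, eventually_gt_atTop (0 : ℝ)] with y hy hy0
  simp only [comp_apply, im_linePt hy0, Real.norm_eq_abs, Real.abs_exp] at hy
  rw [norm_mul, norm_pow, coe_linePt hy0]
  have hnorm : ‖(x : ℂ) + (y : ℂ) * Complex.I‖ ≤ |x| + y := by
    refine (norm_add_le _ _).trans ?_
    simp [abs_of_pos hy0]
  calc ‖(x : ℂ) + (y : ℂ) * Complex.I‖ ^ j * ‖φ (linePt x y)‖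
      ≤ (|x| + y) ^ j * (C * Real.exp (-2 * π * y / h)) :=
        mul_le_mul (pow_le_pow_left₀ (norm_nonneg _) hnorm j) hy (norm_nonneg _) (by positivity)
    _ = C * ((|x| + y) ^ j * Real.exp (-(2 * π / h) * y)) := by ring_nf

theorem zeroOnLines_polynomial_mul (hφ : CuspLike h φ) (Q : Polynomial ℂ) :
    ZeroOnLines fun τ : ℍ => Q.eval (τ : ℂ) * φ τ := by
  intro x
  have := tendsto_finsetSum (Finset.range (Q.natDegree + 1))
    fun j _ => (hφ.zeroOnLines_pow_mul j x).const_mul (Q.coeff j)
  simp only [mul_zero, Finset.sum_const_zero] at this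
  refine this.congr fun y => ?_
  simp only
  rw [Polynomial.eval_eq_sum_range, Finset.sum_mul]
  simp only [mul_assoc]

end CuspLike

end Fermat.Agent.HeckeFinite
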